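import Fermat.Agent.Lib.TW.Flat.BaseRing
import Fermat.Agent.Lib.TW.LF.Unr
import Fermat.Agent.Lib.TW.LF.ValLemmas
import Fermat.Agent.Lib.TW.LF.Kummer
import Fermat.Agent.Lib.TW.Flat.Stable

set_option autoImplicit false
set_option linter.style.haveILetI false

namespace Fermat.Agent.TW

open ValuationSubring Polynomial
open Fermat.Agent.S05Lib

local notation "Qb" => AlgebraicClosure ℚ
local notation "GQ" => (AlgebraicClosure ℚ ≃ₐ[ℚ] AlgebraicClosure ℚ)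

namespace FFPlace

noncomputable section

variable (𝔓 : FFPlace)

/-- the residue field of the place -/
abbrev tkKappa : Type := IsLocalRing.ResidueField 𝔓.P

/-- the residue of an element of `ℚ̄` (zero outside the valuation ring) -/
def tkRes (x : Qb) : 𝔓.tkKappa := by
  classical
  exact if h : x ∈ 𝔓.P then IsLocalRing.residue 𝔓.P ⟨x, h⟩ else 0

lemma tkRes_of_mem {x : Qb} (h : x ∈ 𝔓.P) : 𝔓.tkRes x = IsLocalRing.residue 𝔓.P ⟨x, h⟩ := by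
  unfold tkRes
  rw [dif_pos h]

lemma tk_valuation_lt_one_iff (x : Qb) : 𝔓.P.valuation x < 1 ↔ 𝔓.v.Gt x 0 := by
  by_cases h0 : x = 0
  · subst h0
    simp [QVal.Gt]
  · rw [← map_one 𝔓.P.valuation, qv_lt_iff 𝔓.P 𝔓.hp 𝔓.hP qv_isAlgebraic_int_qbar h0 one_ne_zero,
      qvOrd_one 𝔓.P 𝔓.hp 𝔓.hP]
    constructor
    · intro h; exact Or.inr h
    · rintro (h | h)
      · exact absurd h h0
      · exact h

lemma tkRes_eq_zero_iff {x : Qb} (hx : 𝔓.v.Ge x 0) : 𝔓.tkRes x = 0 ↔ 𝔓.v.Gt x 0 := by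
  have hxP : x ∈ 𝔓.P := (𝔓.mem_P_iff x).mpr hx
  rw [𝔓.tkRes_of_mem hxP, IsLocalRing.residue_eq_zero_iff, 𝔓.P.valuation_lt_one_iff,
    ← 𝔓.tk_valuation_lt_one_iff]

lemma tkRes_add {x y : Qb} (hx : 𝔓.v.Ge x 0) (hy : 𝔓.v.Ge y 0) :
    𝔓.tkRes (x + y) = 𝔓.tkRes x + 𝔓.tkRes y := by
  have hxP : x ∈ 𝔓.P := (𝔓.mem_P_iff x).mpr hx
  have hyP : y ∈ 𝔓.P := (𝔓.mem_P_iff y).mpr hy
  rw [𝔓.tkRes_of_mem hxP, 𝔓.tkRes_of_mem hyP, 𝔓.tkRes_of_mem (𝔓.P.add_mem _ _ hxP hyP), ← map_add]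
  rfl

lemma tkRes_mul {x y : Qb} (hx : 𝔓.v.Ge x 0) (hy : 𝔓.v.Ge y 0) :
    𝔓.tkRes (x * y) = 𝔓.tkRes x * 𝔓.tkRes y := by
  have hxP : x ∈ 𝔓.P := (𝔓.mem_P_iff x).mpr hx
  have hyP : y ∈ 𝔓.P := (𝔓.mem_P_iff y).mpr hy
  rw [𝔓.tkRes_of_mem hxP, 𝔓.tkRes_of_mem hyP, 𝔓.tkRes_of_mem (𝔓.P.mul_mem _ _ hxP hyP), ← map_mul]
  rfl

lemma tkRes_one : 𝔓.tkRes 1 = 1 := by
  rw [𝔓.tkRes_of_mem (𝔓.P.one_mem)]
  exact map_one _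

lemma tkRes_neg {x : Qb} (hx : 𝔓.v.Ge x 0) : 𝔓.tkRes (-x) = - 𝔓.tkRes x := by
  have hxP : x ∈ 𝔓.P := (𝔓.mem_P_iff x).mpr hx
  rw [𝔓.tkRes_of_mem hxP, 𝔓.tkRes_of_mem (𝔓.P.neg_mem _ hxP), ← map_neg]
  rfl

lemma tkRes_sub {x y : Qb} (hx : 𝔓.v.Ge x 0) (hy : 𝔓.v.Ge y 0) :
    𝔓.tkRes (x - y) = 𝔓.tkRes x - 𝔓.tkRes y := by
  rw [sub_eq_add_neg, 𝔓.tkRes_add hx hy.neg, 𝔓.tkRes_neg hy, ← sub_eq_add_neg]

lemma tkRes_pow {x : Qb} (hx : 𝔓.v.Ge x 0) (n : ℕ) : 𝔓.tkRes (x ^ n) = 𝔓.tkRes x ^ n := by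
  induction n with
  | zero => rw [pow_zero, pow_zero, tkRes_one]
  | succ n ih => rw [pow_succ, pow_succ, 𝔓.tkRes_mul (𝔓.ge_zero_pow hx n) hx, ih]

lemma tkRes_eq_iff {x y : Qb} (hx : 𝔓.v.Ge x 0) (hy : 𝔓.v.Ge y 0) :
    𝔓.tkRes x = 𝔓.tkRes y ↔ 𝔓.v.Gt (x - y) 0 := by
  rw [← sub_eq_zero, ← 𝔓.tkRes_sub hx hy, 𝔓.tkRes_eq_zero_iff (hx.sub hy)]

lemma tkRes_natCast (n : ℕ) : 𝔓.tkRes (n : Qb) = (n : 𝔓.tkKappa) := by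
  rw [𝔓.tkRes_of_mem (natCast_mem _ n)]
  exact map_natCast (IsLocalRing.residue 𝔓.P) n

lemma tkRes_p : ((𝔓.p : ℕ) : 𝔓.tkKappa) = 0 := by
  rw [← 𝔓.tkRes_natCast, 𝔓.tkRes_eq_zero_iff (𝔓.lf_ge_natCast _)]
  exact 𝔓.is_p.gt (by norm_num)

instance tk_charP : CharP 𝔓.tkKappa 𝔓.p := (CharP.charP_iff_prime_eq_zero 𝔓.hp).mpr 𝔓.tkRes_p

/-- the valuation of a finite product of elements of valuation `≤ c` -/
lemma tk_le_prod {ι : Type*} (s : Finset ι) (f : ι → Qb) {c : ℚ} (h : ∀ i ∈ s, 𝔓.v.Le (f i) c) :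
    𝔓.v.Le (∏ i ∈ s, f i) (s.card * c) := by
  classical
  induction s using Finset.induction_on with
  | empty => simpa using (QVal.is_one (v := 𝔓.v)).le
  | insert a s ha ih =>
    rw [Finset.prod_insert ha, Finset.card_insert_of_notMem ha]
    have h1 := (h a (Finset.mem_insert_self a s)).mul
      (ih (fun i hi => h i (Finset.mem_insert_of_mem hi)))
    refine h1.mono ?_
    push_cast
    linarith

/-- a `p`-th root of unity different from `1` is primitive -/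
lemma tk_isPrimitiveRoot_of_ne_one {η : Qb} (hη : η ^ 𝔓.p = 1) (h1 : η ≠ 1) :
    IsPrimitiveRoot η 𝔓.p := by
  have hdvd := orderOf_dvd_of_pow_eq_one hη
  rcases (Nat.dvd_prime 𝔓.hp).1 hdvd with h | h
  · exact absurd (orderOf_eq_one_iff.1 h) h1
  · rw [← h]; exact IsPrimitiveRoot.orderOf η

/-- **the root lemma**: an element of the inertia field which is `≡ 1 mod p²` is a `p`-th power in
the inertia field (`p` odd). -/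
theorem tk_exists_root (hp3 : 3 ≤ 𝔓.p) {u : Qb} (hu : u ∈ 𝔓.K0) (h : 𝔓.v.Ge (u - 1) 2) :
    ∃ s ∈ 𝔓.K0, s ^ 𝔓.p = u ∧ 𝔓.v.Gt (s - 1) 0 := by
  classical
  have hp := 𝔓.hp
  have hppos : 0 < 𝔓.p := hp.pos
  haveI : NeZero 𝔓.p := ⟨hp.ne_zero⟩
  have hpQ : (3 : ℚ) ≤ (𝔓.p : ℚ) := by exact_mod_cast hp3
  set c : ℚ := 1 / ((𝔓.p : ℚ) - 1) with hc
  have hcpos : 0 < c := by rw [hc]; apply div_pos one_pos; linarith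
  have hcle : c ≤ 1 / 2 := by
    rw [hc, div_le_div_iff₀ (by linarith) (by norm_num)]; linarith
  -- `u` is a unit
  have hu0 : 𝔓.v.Is u 0 := by
    have : u = 1 + (u - 1) := by ring
    rw [this]
    exact (QVal.is_one (v := 𝔓.v)).add_gt (h.gt (by norm_num))
  obtain ⟨y₀, hy₀⟩ := IsAlgClosed.exists_pow_nat_eq u hppos
  have hy₀0 : 𝔓.v.Is y₀ 0 := by
    have hne : y₀ ≠ 0 := by
      rintro rfl
      rw [zero_pow hp.ne_zero] at hy₀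
      exact hu0.1 hy₀.symm
    refine ⟨hne, ?_⟩
    have h1 := 𝔓.v.ord_pow hne 𝔓.p
    rw [hy₀, hu0.2] at h1
    have hpne : (𝔓.p : ℚ) ≠ 0 := by positivity
    rcases mul_eq_zero.1 h1.symm with h2 | h2
    · exact absurd h2 hpne
    · exact h2
  obtain ⟨ζ, hζ⟩ := HasEnoughRootsOfUnity.exists_primitiveRoot Qb 𝔓.p
  -- the product formula
  have hprod : 1 - u = ∏ η ∈ nthRootsFinset 𝔓.p (1 : Qb), (1 - η * y₀) := by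
    have := hζ.pow_sub_pow_eq_prod_sub_mul (1 : Qb) y₀ hppos
    rw [one_pow, hy₀] at this
    exact this
  -- some root is close to `1`
  have hex : ∃ η ∈ nthRootsFinset 𝔓.p (1 : Qb), 𝔓.v.Gt (1 - η * y₀) c := by
    by_contra hne
    push Not at hne
    have hall : ∀ η ∈ nthRootsFinset 𝔓.p (1 : Qb), 𝔓.v.Le (1 - η * y₀) c := by
      intro η hη
      rcases 𝔓.v.le_or_gt (1 - η * y₀) c with h1 | h1
      · exact h1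
      · exact absurd h1 (hne η hη)
    have h1 := 𝔓.tk_le_prod _ _ hall
    rw [← hprod, hζ.card_nthRootsFinset] at h1
    have h2 : 𝔓.v.Ge (1 - u) 2 := by
      have := h.neg
      rwa [neg_sub] at this
    refine h1.not_ge h2 ?_
    rw [hc]
    rw [mul_one_div, div_lt_iff₀ (by linarith)]
    linarith
  obtain ⟨η, hη, hclose⟩ := hex
  have hηp : η ^ 𝔓.p = 1 := (mem_nthRootsFinset hppos (1 : Qb)).1 hη
  set y := η * y₀ with hy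
  have hyp : y ^ 𝔓.p = u := by rw [hy, mul_pow, hηp, one_mul, hy₀]
  have hy0 : 𝔓.v.Is y 0 := by
    have h1 := (𝔓.is_zero_of_pow_eq_one hppos hηp).mul hy₀0
    rwa [add_zero] at h1
  refine ⟨y, ?_, hyp, ?_⟩
  · -- `y` is fixed by inertia
    rw [𝔓.mem_K0_iff]
    intro σ hσ
    by_contra hne
    have hσu : σ u = u := (𝔓.mem_K0_iff u).1 hu σ hσ
    set ξ := σ y / y with hξ
    have hξp : ξ ^ 𝔓.p = 1 := by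
      rw [hξ, div_pow, ← map_pow, hyp, hσu, div_self hu0.1]
    have hξ1 : ξ ≠ 1 := by
      intro h1
      apply hne
      rw [hξ, div_eq_one_iff_eq hy0.1] at h1
      exact h1
    have hξprim := 𝔓.tk_isPrimitiveRoot_of_ne_one hξp hξ1
    have h1 : 𝔓.v.Is (ξ - 1) c := 𝔓.lf_is_zeta_sub_one hξprim
    have h2 : 1 - σ y = (1 - y) + y * (1 - ξ) := by
      have : y * ξ = σ y := by rw [hξ]; exact mul_div_cancel₀ _ hy0.1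
      rw [mul_sub, this]; ring
    have h3 : 𝔓.v.Is (y * (1 - ξ)) c := by
      have := hy0.mul (h1.neg)
      rwa [neg_sub, zero_add] at this
    have h4 : 𝔓.v.Is (1 - σ y) c := by
      rw [h2, add_comm]; exact h3.add_gt hclose
    have h5 : 1 - σ y = σ (1 - y) := by rw [map_sub, map_one]
    rw [h5] at h4
    have h6 := h4.2
    rw [𝔓.ord_D (𝔓.I_le_D hσ)] at h6
    rcases hclose with h7 | h7
    · rw [h7, map_zero] at h4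
      exact h4.1 rfl
    · rw [h6] at h7
      exact lt_irrefl _ h7
  · have := (hclose.neg).mono hcpos.le
    rwa [neg_sub] at this

/-- `u = p ^ n * s ^ p * (1 + p z)` with `s` in the inertia field and `z ∈ W` -/
def TkRep (u : Qb) (n : ℤ) (z : Qb) : Prop :=
  z ∈ 𝔓.W ∧ ∃ s ∈ 𝔓.K0, s ≠ 0 ∧ u = (𝔓.p : Qb) ^ n * s ^ 𝔓.p * (1 + (𝔓.p : Qb) * z)

lemma tk_natCast_mem_K0 (n : ℕ) : (n : Qb) ∈ 𝔓.K0 := natCast_mem _ n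

lemma tk_mem_W_of_K0 {x : Qb} (hx : x ∈ 𝔓.K0) (h : 𝔓.v.Ge x 0) : x ∈ 𝔓.W := by
  rw [mem_W_iff]
  exact ⟨h, (𝔓.mem_K0_iff x).1 hx⟩

/-- every nonzero element of the inertia field has a representation -/
theorem tkRep_exists {u : Qb} (hu : u ∈ 𝔓.K0) (hu0 : u ≠ 0) : ∃ n z, 𝔓.TkRep u n z := by
  have hU := 𝔓.lf_unr
  have hp := 𝔓.hp
  obtain ⟨n, hn⟩ := hU u hu hu0
  have hpn : 𝔓.v.Is ((𝔓.p : Qb) ^ n) n := by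
    have := 𝔓.lf_is_zpow 𝔓.is_p n
    rwa [mul_one] at this
  set w := u / (𝔓.p : Qb) ^ n with hw
  have hw0 : 𝔓.v.Is w 0 := by
    have := (QVal.Is.div (v := 𝔓.v) ⟨hu0, hn⟩ hpn)
    rwa [sub_self] at this
  have hwK : w ∈ 𝔓.K0 := div_mem hu (zpow_mem (𝔓.tk_natCast_mem_K0 _) n)
  obtain ⟨d, hd, hcop, hgt⟩ := 𝔓.exists_pow_sub_one_gt hw0
  have hwdK : w ^ d - 1 ∈ 𝔓.K0 := sub_mem (pow_mem hwK d) (one_mem _)
  have hge1 : 𝔓.v.Ge (w ^ d - 1) 1 := hU.ge_one hwdK hgt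
  obtain ⟨d', -, hd'⟩ := Nat.exists_mul_mod_eq_one_of_coprime hcop hp.one_lt
  set e := d * d' / 𝔓.p with he
  have hdd : d * d' = 𝔓.p * e + 1 := by
    have := Nat.div_add_mod (d * d') 𝔓.p
    rw [hd'] at this
    exact this.symm
  -- `(w^d)^d' - 1` has valuation `≥ 1`
  have hge1' : 𝔓.v.Ge ((w ^ d) ^ d' - 1) 1 := by
    have h1 : 𝔓.v.Ge (1 - w ^ d) 1 := by
      have := hge1.neg; rwa [neg_sub] at this
    have h2 := 𝔓.lf_ge_one_sub_pow (𝔓.ge_zero_pow hw0.ge d) h1 d'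
    have := h2.neg; rwa [neg_sub] at this
  have hK' : (w ^ d) ^ d' - 1 ∈ 𝔓.K0 := sub_mem (pow_mem (pow_mem hwK d) d') (one_mem _)
  have hW' : (w ^ d) ^ d' - 1 ∈ 𝔓.W := 𝔓.tk_mem_W_of_K0 hK' (hge1'.mono (by norm_num))
  set z₁ := ((w ^ d) ^ d' - 1) / (𝔓.p : Qb) with hz₁
  have hz₁W : z₁ ∈ 𝔓.W := 𝔓.div_p_mem_W hW' hge1'
  have hz₁ : 1 + (𝔓.p : Qb) * z₁ = (w ^ d) ^ d' := by
    rw [hz₁, mul_div_cancel₀ _ 𝔓.p_ne_zero]; ring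
  refine ⟨n, z₁, hz₁W, (w ^ e)⁻¹, inv_mem (pow_mem hwK e), inv_ne_zero (pow_ne_zero _ hw0.1), ?_⟩
  rw [hz₁, ← pow_mul, hdd, pow_succ, pow_mul', inv_pow]
  have hne : (w ^ e) ^ 𝔓.p ≠ 0 := pow_ne_zero _ (pow_ne_zero _ hw0.1)
  have hpn0 : (𝔓.p : Qb) ^ n ≠ 0 := zpow_ne_zero _ 𝔓.p_ne_zero
  have huw : u = (𝔓.p : Qb) ^ n * w := by rw [hw]; field_simp
  rw [mul_assoc, ← mul_assoc _ _ w, inv_mul_cancel₀ hne, one_mul]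
  exact huw

lemma tkRep_one : 𝔓.TkRep 1 0 0 :=
  ⟨zero_mem _, 1, one_mem _, one_ne_zero, by simp⟩

lemma tkRep_pow {s : Qb} (hs : s ∈ 𝔓.K0) (hs0 : s ≠ 0) : 𝔓.TkRep (s ^ 𝔓.p) 0 0 :=
  ⟨zero_mem _, s, hs, hs0, by simp⟩

lemma tkRep_mul {u u' : Qb} {n n' : ℤ} {z z' : Qb} (h : 𝔓.TkRep u n z) (h' : 𝔓.TkRep u' n' z') :
    𝔓.TkRep (u * u') (n + n') (z + z' + (𝔓.p : Qb) * z * z') := by
  obtain ⟨hz, s, hs, hs0, rfl⟩ := h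
  obtain ⟨hz', s', hs', hs0', rfl⟩ := h'
  refine ⟨?_, s * s', mul_mem hs hs', mul_ne_zero hs0 hs0', ?_⟩
  · exact add_mem (add_mem hz hz') (mul_mem (mul_mem (𝔓.natCast_mem_W _) hz) hz')
  · rw [zpow_add₀ 𝔓.p_ne_zero, mul_pow]; ring

/-- `1 - x ^ p ≡ 0 mod p²` when `x ≡ 1 mod p` -/
lemma tk_ge_two_one_sub_pow {x : Qb} (hx : 𝔓.v.Ge x 0) (h : 𝔓.v.Ge (1 - x) 1) :
    𝔓.v.Ge (1 - x ^ 𝔓.p) 2 := by
  have h1 := geom_sum_mul_neg x 𝔓.p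
  rw [← h1]
  have hsum : 𝔓.v.Ge (∑ k ∈ Finset.range 𝔓.p, x ^ k) 1 := by
    have h3 : ∑ k ∈ Finset.range 𝔓.p, x ^ k =
        (𝔓.p : Qb) - ∑ k ∈ Finset.range 𝔓.p, (1 - x ^ k) := by
      rw [Finset.sum_sub_distrib]; simp
    rw [h3]
    exact 𝔓.is_p.ge.sub (𝔓.ge_zero_sum _ _ fun k _ => 𝔓.lf_ge_one_sub_pow hx h k)
  have := hsum.mul h
  norm_num at this
  exact this

lemma tk_is_one_add_p_mul {z : Qb} (hz : 𝔓.v.Ge z 0) : 𝔓.v.Is (1 + (𝔓.p : Qb) * z) 0 := by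
  have h1 : 𝔓.v.Ge ((𝔓.p : Qb) * z) (1 + 0) := 𝔓.is_p.ge.mul hz
  exact (QVal.is_one (v := 𝔓.v)).add_gt (h1.gt (by norm_num))

lemma tk_ge_of_mem_W {z : Qb} (hz : z ∈ 𝔓.W) : 𝔓.v.Ge z 0 := ((𝔓.mem_W_iff z).1 hz).1

/-- **uniqueness of the invariants** of a representation -/
theorem tkRep_unique {u : Qb} {n n' : ℤ} {z z' : Qb} (h : 𝔓.TkRep u n z)
    (h' : 𝔓.TkRep u n' z') : ((n : ZMod 𝔓.p) = (n' : ZMod 𝔓.p)) ∧ 𝔓.tkRes z = 𝔓.tkRes z' := by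
  have hU := 𝔓.lf_unr
  have hp := 𝔓.hp
  haveI : Fact 𝔓.p.Prime := ⟨hp⟩
  obtain ⟨hz, s, hs, hs0, hu⟩ := h
  obtain ⟨hz', s', hs', hs0', hu'⟩ := h'
  have hzge := 𝔓.tk_ge_of_mem_W hz
  have hzge' := 𝔓.tk_ge_of_mem_W hz'
  have hA := 𝔓.tk_is_one_add_p_mul hzge
  have hA' := 𝔓.tk_is_one_add_p_mul hzge'
  set A := 1 + (𝔓.p : Qb) * z with hAdef
  set A' := 1 + (𝔓.p : Qb) * z' with hAdef'
  obtain ⟨m, hm⟩ := hU s hs hs0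
  obtain ⟨m', hm'⟩ := hU s' hs' hs0'
  have hord : (n : ℚ) + 𝔓.p * m = n' + 𝔓.p * m' := by
    have h1 : 𝔓.v.Is u ((n : ℚ) * 1 + (𝔓.p : ℚ) * m + 0) := by
      rw [hu]
      exact ((𝔓.lf_is_zpow 𝔓.is_p n).mul (QVal.Is.pow ⟨hs0, hm⟩ 𝔓.p)).mul hA
    have h2 : 𝔓.v.Is u ((n' : ℚ) * 1 + (𝔓.p : ℚ) * m' + 0) := by
      rw [hu']
      exact ((𝔓.lf_is_zpow 𝔓.is_p n').mul (QVal.Is.pow ⟨hs0', hm'⟩ 𝔓.p)).mul hA'
    have := h1.unique h2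
    linarith
  have hordZ : n + 𝔓.p * m = n' + 𝔓.p * m' := by exact_mod_cast hord
  have hn : n = n' + 𝔓.p * (m' - m) := by linarith
  refine ⟨?_, ?_⟩
  · rw [hn]
    push_cast
    rw [ZMod.natCast_self, zero_mul, add_zero]
  -- the quotient `r`
  set e : ℤ := m' - m with he
  set r := s' / ((𝔓.p : Qb) ^ e * s) with hr
  have hpe0 : (𝔓.p : Qb) ^ e ≠ 0 := zpow_ne_zero _ 𝔓.p_ne_zero
  have hden0 : (𝔓.p : Qb) ^ e * s ≠ 0 := mul_ne_zero hpe0 hs0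
  have hrK : r ∈ 𝔓.K0 := div_mem hs' (mul_mem (zpow_mem (𝔓.tk_natCast_mem_K0 _) e) hs)
  have hr0 : 𝔓.v.Is r 0 := by
    have h1 := QVal.Is.div (v := 𝔓.v) ⟨hs0', hm'⟩ ((𝔓.lf_is_zpow 𝔓.is_p e).mul ⟨hs0, hm⟩)
    refine h1.congr ?_
    rw [he]; push_cast; ring
  have hrp : r ^ 𝔓.p * A' = A := by
    have hpn : (𝔓.p : Qb) ^ n = (𝔓.p : Qb) ^ n' * ((𝔓.p : Qb) ^ e) ^ 𝔓.p := by
      rw [hn, zpow_add₀ 𝔓.p_ne_zero, ← zpow_natCast, ← zpow_mul, mul_comm e]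
    have h1 : (𝔓.p : Qb) ^ n' * (((𝔓.p : Qb) ^ e * s) ^ 𝔓.p * A) =
        (𝔓.p : Qb) ^ n' * (s' ^ 𝔓.p * A') := by
      rw [mul_pow, ← mul_assoc, ← mul_assoc, ← mul_assoc, ← hpn, ← hu, hu', mul_assoc]
    have h2 := mul_left_cancel₀ (zpow_ne_zero _ 𝔓.p_ne_zero) h1
    rw [hr, div_pow, div_mul_eq_mul_div, ← h2]
    exact mul_div_cancel_left₀ _ (pow_ne_zero _ hden0)
  -- `r ^ p ≡ 1`
  have hdiff : A - A' = (𝔓.p : Qb) * (z - z') := by rw [hAdef, hAdef']; ring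
  have hrp1 : r ^ 𝔓.p - 1 = (𝔓.p : Qb) * (z - z') / A' := by
    rw [← hdiff, ← hrp]; field_simp [hA'.1]
  have hgt1 : 𝔓.v.Gt (r ^ 𝔓.p - 1) 0 := by
    rw [hrp1]
    have h1 : 𝔓.v.Ge ((𝔓.p : Qb) * (z - z')) (1 + 0) := 𝔓.is_p.ge.mul (hzge.sub hzge')
    have h2 := h1.div_is hA'
    exact h2.gt (by norm_num)
  have hres : 𝔓.tkRes r = 1 := by
    have h1 : 𝔓.tkRes (r ^ 𝔓.p) = 𝔓.tkRes 1 :=
      (𝔓.tkRes_eq_iff (𝔓.ge_zero_pow hr0.ge _) (QVal.is_one (v := 𝔓.v)).ge).2 hgt1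
    rw [𝔓.tkRes_pow hr0.ge, 𝔓.tkRes_one] at h1
    have h2 : (𝔓.tkRes r - 1) ^ 𝔓.p = 0 := by
      rw [sub_pow_char, h1, one_pow, sub_self]
    have h3 := pow_eq_zero_iff (hp.ne_zero) |>.1 h2
    exact sub_eq_zero.1 h3
  have hgt2 : 𝔓.v.Gt (r - 1) 0 := by
    rw [← 𝔓.tkRes_one] at hres
    exact (𝔓.tkRes_eq_iff hr0.ge (QVal.is_one (v := 𝔓.v)).ge).1 hres
  have hge1 : 𝔓.v.Ge (r - 1) 1 := hU.ge_one (sub_mem hrK (one_mem _)) hgt2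
  have hge1' : 𝔓.v.Ge (1 - r) 1 := by
    have := hge1.neg; rwa [neg_sub] at this
  have hge2 := 𝔓.tk_ge_two_one_sub_pow hr0.ge hge1'
  -- conclude
  have h4 : (𝔓.p : Qb) * (z' - z) = A' * (1 - r ^ 𝔓.p) := by
    have : A' * (1 - r ^ 𝔓.p) = A' - r ^ 𝔓.p * A' := by ring
    rw [this, hrp, hAdef, hAdef']; ring
  have h5 : 𝔓.v.Ge ((𝔓.p : Qb) * (z' - z)) (0 + 2) := by
    rw [h4]; exact hA'.ge.mul hge2
  have h6 : 𝔓.v.Ge (z' - z) (0 + 2 - 1) := by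
    have := h5.div_is 𝔓.is_p
    rwa [mul_div_cancel_left₀ _ 𝔓.p_ne_zero] at this
  have h7 : 𝔓.v.Gt (z - z') 0 := by
    have := (h6.gt (show (0 : ℚ) < 0 + 2 - 1 by norm_num)).neg
    rwa [neg_sub] at this
  exact (𝔓.tkRes_eq_iff hzge hzge').2 h7

/-- the invariants `(n mod p, z mod 𝔪)` of `u = p ^ n * s ^ p * (1 + p z)` -/
def tkInv (u : Qb) : ZMod 𝔓.p × 𝔓.tkKappa := by
  classical
  exact if h : ∃ n z, 𝔓.TkRep u n z then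
    (((Classical.choose h : ℤ) : ZMod 𝔓.p),
      𝔓.tkRes (Classical.choose (Classical.choose_spec h))) else 0

lemma tkInv_eq {u : Qb} {n : ℤ} {z : Qb} (h : 𝔓.TkRep u n z) :
    𝔓.tkInv u = ((n : ZMod 𝔓.p), 𝔓.tkRes z) := by
  have hex : ∃ n z, 𝔓.TkRep u n z := ⟨n, z, h⟩
  unfold tkInv
  rw [dif_pos hex]
  have := 𝔓.tkRep_unique (Classical.choose_spec (Classical.choose_spec hex)) h
  exact Prod.ext this.1 this.2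

lemma tkRes_zero : 𝔓.tkRes 0 = 0 :=
  (𝔓.tkRes_eq_zero_iff (QVal.ge_zero' (v := 𝔓.v))).2 (QVal.gt_zero' (v := 𝔓.v))

lemma tkInv_pow {s : Qb} (hs : s ∈ 𝔓.K0) (hs0 : s ≠ 0) : 𝔓.tkInv (s ^ 𝔓.p) = 0 := by
  rw [𝔓.tkInv_eq (𝔓.tkRep_pow hs hs0), Int.cast_zero, tkRes_zero]
  rfl

lemma tkInv_one : 𝔓.tkInv 1 = 0 := by
  rw [𝔓.tkInv_eq 𝔓.tkRep_one, Int.cast_zero, tkRes_zero]
  rfl

lemma tkInv_mul {u u' : Qb} (hu : u ∈ 𝔓.K0) (hu0 : u ≠ 0) (hu' : u' ∈ 𝔓.K0) (hu0' : u' ≠ 0) :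
    𝔓.tkInv (u * u') = 𝔓.tkInv u + 𝔓.tkInv u' := by
  obtain ⟨n, z, h⟩ := 𝔓.tkRep_exists hu hu0
  obtain ⟨n', z', h'⟩ := 𝔓.tkRep_exists hu' hu0'
  rw [𝔓.tkInv_eq (𝔓.tkRep_mul h h'), 𝔓.tkInv_eq h, 𝔓.tkInv_eq h']
  have hz := 𝔓.tk_ge_of_mem_W h.1
  have hz' := 𝔓.tk_ge_of_mem_W h'.1
  have h1 : 𝔓.v.Gt ((𝔓.p : Qb) * z * z') 0 := by
    have := (𝔓.is_p.ge.mul hz).mul hz'
    exact this.gt (by norm_num)
  rw [𝔓.tkRes_add (hz.add hz') h1.ge, 𝔓.tkRes_add hz hz', (𝔓.tkRes_eq_zero_iff h1.ge).2 h1,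
    add_zero]
  push_cast
  rfl

/-- **injectivity of the invariants**: an element with trivial invariants is a `p`-th power -/
theorem tk_exists_root_of_tkInv_eq_zero (hp3 : 3 ≤ 𝔓.p) {u : Qb} (hu : u ∈ 𝔓.K0) (hu0 : u ≠ 0)
    (h : 𝔓.tkInv u = 0) : ∃ s ∈ 𝔓.K0, s ≠ 0 ∧ s ^ 𝔓.p = u := by
  have hU := 𝔓.lf_unr
  obtain ⟨n, z, hrep⟩ := 𝔓.tkRep_exists hu hu0
  rw [𝔓.tkInv_eq hrep] at h
  have hn0 : ((n : ℤ) : ZMod 𝔓.p) = 0 := congrArg Prod.fst h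
  have hz0 : 𝔓.tkRes z = 0 := congrArg Prod.snd h
  obtain ⟨hzW, s, hs, hs0, hus⟩ := hrep
  have hzge := 𝔓.tk_ge_of_mem_W hzW
  obtain ⟨j, hj⟩ := (ZMod.intCast_zmod_eq_zero_iff_dvd n 𝔓.p).1 hn0
  have hzgt : 𝔓.v.Gt z 0 := (𝔓.tkRes_eq_zero_iff hzge).1 hz0
  have hz1 : 𝔓.v.Ge z 1 := hU.ge_one (𝔓.K0_of_W hzW) hzgt
  have hpz : 𝔓.v.Ge ((𝔓.p : Qb) * z) 2 := by
    have := 𝔓.is_p.ge.mul hz1
    norm_num at this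
    exact this
  have hmem : 1 + (𝔓.p : Qb) * z ∈ 𝔓.K0 :=
    add_mem (one_mem _) (mul_mem (𝔓.tk_natCast_mem_K0 _) (𝔓.K0_of_W hzW))
  obtain ⟨t, ht, htp, -⟩ := 𝔓.tk_exists_root hp3 hmem (by rwa [add_sub_cancel_left])
  have ht0 : t ≠ 0 := by
    rintro rfl
    rw [zero_pow 𝔓.hp.ne_zero] at htp
    exact (𝔓.tk_is_one_add_p_mul hzge).1 htp.symm
  refine ⟨(𝔓.p : Qb) ^ j * s * t, mul_mem (mul_mem (zpow_mem (𝔓.tk_natCast_mem_K0 _) j) hs) ht,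
    mul_ne_zero (mul_ne_zero (zpow_ne_zero _ 𝔓.p_ne_zero) hs0) ht0, ?_⟩
  rw [mul_pow, mul_pow, htp, hus, hj, ← zpow_natCast ((𝔓.p : Qb) ^ j), ← zpow_mul, mul_comm j]

lemma tk_map_mem_K0 {σ : GQ} (hσ : σ ∈ 𝔓.D) {x : Qb} (hx : x ∈ 𝔓.K0) : σ x ∈ 𝔓.K0 := by
  rw [mem_K0_iff] at hx ⊢
  intro τ hτ
  have h1 := hx _ (𝔓.conj_mem_I' hσ hτ)
  have h2 : τ (σ x) = σ ((σ⁻¹ * τ * σ) x) := by
    have : σ * (σ⁻¹ * τ * σ) = τ * σ := by group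
    rw [← AlgEquiv.mul_apply σ, this, AlgEquiv.mul_apply]
  rw [h2, h1]

/-- **Frobenius acts on the invariants** by `(n, x) ↦ (n, x ^ p)` -/
theorem tkInv_frob {φ : GQ} (hφD : φ ∈ 𝔓.D)
    (hφ : ∀ x : Qb, 𝔓.v.Ge x 0 → 𝔓.v.Gt (φ x - x ^ 𝔓.p) 0) {u : Qb} (hu : u ∈ 𝔓.K0)
    (hu0 : u ≠ 0) : 𝔓.tkInv (φ u) = ((𝔓.tkInv u).1, (𝔓.tkInv u).2 ^ 𝔓.p) := by
  obtain ⟨n, z, hrep⟩ := 𝔓.tkRep_exists hu hu0
  rw [𝔓.tkInv_eq hrep]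
  obtain ⟨hzW, s, hs, hs0, hus⟩ := hrep
  have hzge := 𝔓.tk_ge_of_mem_W hzW
  have hrep' : 𝔓.TkRep (φ u) n (φ z) := by
    refine ⟨𝔓.map_mem_W hφD hzW, φ s, 𝔓.tk_map_mem_K0 hφD hs, ?_, ?_⟩
    · rwa [Ne, EmbeddingLike.map_eq_zero_iff]
    · rw [hus, map_mul, map_mul, map_pow, map_add, map_one, map_mul, map_zpow₀, map_natCast]
  rw [𝔓.tkInv_eq hrep']
  refine Prod.ext rfl ?_
  show 𝔓.tkRes (φ z) = 𝔓.tkRes z ^ 𝔓.p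
  rw [← 𝔓.tkRes_pow hzge]
  exact (𝔓.tkRes_eq_iff (𝔓.ge_D hφD hzge) (𝔓.ge_zero_pow hzge _)).2 (hφ z hzge)

end

end FFPlace

end Fermat.Agent.TW
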