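/-
P10 / G7 WP-D (helper8): Kummer generators of cocycles of the inertia group with values in
`ZMod p (1)`.

For a function `a : G_ℚ → ZMod p` which is an `ω`-cocycle on the inertia group `I`
(`a (σ τ) = a σ + ω σ * a τ`, where `σ ζ = ζ ^ ω σ`) and constant modulo a finite level, Hilbert 90
gives `y ≠ 0` with `ι y = ζ ^ (a ι) * y` for all `ι ∈ I` (`tkGen_exists`).  Then `y ^ p` lies in the
inertia field `K0`, and its invariants `tkGenInv ζ a = tkInv (y ^ p)` only depend on `a`; they are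
additive in `a`, vanish exactly on the coboundaries `ι ↦ (ω ι - 1) j`, and are compatible with
Frobenius conjugation.
-/
import Fermat.Agent.Lib.TW.Kum.UnitsK0
import Fermat.Agent.Lib.TW.LF.KummerEquiv

set_option autoImplicit false
set_option linter.style.haveILetI false

namespace Fermat.Agent.TW

open groupCohomology
open Fermat.Agent.S05Lib

local notation "Qb" => AlgebraicClosure ℚ
local notation "GQ" => (AlgebraicClosure ℚ ≃ₐ[ℚ] AlgebraicClosure ℚ)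

/-- **Hilbert 90 at a finite level, inside `ℚ̄`**: a multiplicative cocycle of a subgroup `U` of
`G_ℚ` with values in a finite normal extension `F` of `ℚ`, which only depends on the restriction to
`F`, is a coboundary. -/
theorem tk_hilbert90 (U : Subgroup GQ) (F : IntermediateField ℚ Qb) [FiniteDimensional ℚ F]
    [Normal ℚ F] (f : GQ → Qb) (hfF : ∀ σ ∈ U, f σ ∈ F) (hf0 : ∀ σ ∈ U, f σ ≠ 0)
    (hmul : ∀ σ ∈ U, ∀ τ ∈ U, f (σ * τ) = f σ * σ (f τ))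
    (hlev : ∀ σ ∈ U, ∀ τ ∈ U, (∀ x ∈ F, σ x = τ x) → f σ = f τ) :
    ∃ y : Qb, y ∈ F ∧ y ≠ 0 ∧ ∀ σ ∈ U, σ y = f σ * y := by
  classical
  haveI : IsGalois ℚ F := ⟨⟩
  let res : GQ →* (↥F ≃ₐ[ℚ] ↥F) := AlgEquiv.restrictNormalHom F
  have hres : ∀ (σ : GQ) (x : ↥F), ((res σ x : ↥F) : Qb) = σ (x : Qb) := fun σ x =>
    AlgEquiv.restrictNormal_commutes σ F x
  let UF : Subgroup (↥F ≃ₐ[ℚ] ↥F) := U.map res
  let K' : IntermediateField ℚ ↥F := IntermediateField.fixedField UF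
  have hfix : K'.fixingSubgroup = UF := IntermediateField.fixingSubgroup_fixedField UF
  let e : K'.fixingSubgroup ≃* (↥F ≃ₐ[↥K'] ↥F) := IntermediateField.fixingSubgroupEquiv K'
  -- lifts
  have hlift : ∀ g : (↥F ≃ₐ[↥K'] ↥F), ∃ σ ∈ U, res σ = ((e.symm g : K'.fixingSubgroup) :
      ↥F ≃ₐ[ℚ] ↥F) := by
    intro g
    have h1 : ((e.symm g : K'.fixingSubgroup) : ↥F ≃ₐ[ℚ] ↥F) ∈ UF := by
      rw [← hfix]; exact (e.symm g).2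
    obtain ⟨σ, hσ, h2⟩ := Subgroup.mem_map.1 h1
    exact ⟨σ, hσ, h2⟩
  choose lift hliftU hliftres using hlift
  have hact : ∀ (g : (↥F ≃ₐ[↥K'] ↥F)) (x : ↥F), ((g x : ↥F) : Qb) = lift g (x : Qb) := by
    intro g x
    rw [← hres, hliftres]
    rfl
  -- the cocycle
  let f' : (↥F ≃ₐ[↥K'] ↥F) → (↥F)ˣ := fun g =>
    Units.mk0 (⟨f (lift g), hfF _ (hliftU g)⟩ : ↥F) (by
      intro h0
      exact hf0 _ (hliftU g) (congrArg Subtype.val h0))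
  have hf'val : ∀ g, (((f' g : (↥F)ˣ) : ↥F) : Qb) = f (lift g) := fun g => rfl
  have hcoc : IsMulCocycle₁ f' := by
    intro g h
    apply Units.ext
    apply Subtype.ext
    have h1 : f (lift (g * h)) = f (lift g * lift h) := by
      apply hlev _ (hliftU _) _ (U.mul_mem (hliftU g) (hliftU h))
      intro x hx
      have e1 := hact (g * h) ⟨x, hx⟩
      have e2 := hact g (h ⟨x, hx⟩)
      have e3 := hact h ⟨x, hx⟩
      rw [AlgEquiv.mul_apply] at e1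
      rw [← e1, e2, e3]
      rfl
    have h2 : (((g • f' h : (↥F)ˣ) : ↥F) : Qb) = lift g (f (lift h)) := by
      have : ((g • f' h : (↥F)ˣ) : ↥F) = g ((f' h : (↥F)ˣ) : ↥F) := rfl
      rw [this, hact, hf'val]
    show (((f' (g * h) : (↥F)ˣ) : ↥F) : Qb) =
      (((g • f' h : (↥F)ˣ) : ↥F) : Qb) * (((f' g : (↥F)ˣ) : ↥F) : Qb)
    rw [hf'val, hf'val, h2, h1, hmul _ (hliftU g) _ (hliftU h), mul_comm]
  obtain ⟨β, hβ⟩ := isMulCoboundary₁_of_isMulCocycle₁_of_aut_to_units f' hcoc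
  refine ⟨((β : ↥F) : Qb), (β : ↥F).2, ?_, fun σ hσ => ?_⟩
  · intro h0
    exact β.ne_zero (Subtype.ext h0)
  · -- the element of `Gal(F/K')` induced by `σ`
    have hσF : res σ ∈ K'.fixingSubgroup := by
      rw [hfix]; exact Subgroup.mem_map_of_mem _ hσ
    let g : (↥F ≃ₐ[↥K'] ↥F) := e ⟨res σ, hσF⟩
    have hg : ∀ x : ↥F, ((g x : ↥F) : Qb) = σ (x : Qb) := fun x => hres σ x
    have h1 := hβ g
    have h2 : f (lift g) = f σ := by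
      apply hlev _ (hliftU g) _ hσ
      intro x hx
      rw [← hact g ⟨x, hx⟩, hg]
    have h3 : (g • β : (↥F)ˣ) = f' g * β := by
      rw [← h1, div_mul_cancel]
    have h4 := congrArg (fun u : (↥F)ˣ => ((u : ↥F) : Qb)) h3
    simp only [Units.val_mul] at h4
    have h5 : (((g • β : (↥F)ˣ) : ↥F) : Qb) = σ ((β : ↥F) : Qb) := hg _
    rw [h5] at h4
    rw [h4]
    show (((f' g : (↥F)ˣ) : ↥F) : Qb) * _ = _
    rw [hf'val, h2]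

/-- `a ↦ ζ ^ a` is injective for a primitive root `ζ` -/
lemma tk_lfZPow_injective {p : ℕ} [NeZero p] {ζ : Qb} (hζ : IsPrimitiveRoot ζ p) {a b : ZMod p}
    (h : lfZPow ζ a = lfZPow ζ b) : a = b := by
  have hζp := hζ.pow_eq_one
  have h1 : lfZPow ζ (a - b) = 1 := by
    rw [sub_eq_add_neg, lfZPow_add hζp, lfZPow_neg hζp, h,
      mul_inv_cancel₀ (lfZPow_ne_zero hζp b)]
  exact sub_eq_zero.1 ((lfZPow_eq_one_iff hζ _).1 h1)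

/-- the action of a Galois element on `ζ ^ a` -/
lemma tk_apply_lfZPow {p : ℕ} [NeZero p] {ζ : Qb} (hζp : ζ ^ p = 1) (σ : GQ) {w : ZMod p}
    (hσ : σ ζ = lfZPow ζ w) (a : ZMod p) : σ (lfZPow ζ a) = lfZPow ζ (w * a) := by
  rw [← lfZPow_mul hζp, ← hσ]
  unfold lfZPow
  rw [map_pow]

namespace FFPlace

noncomputable section

variable (𝔓 : FFPlace)

instance tk_neZero : NeZero 𝔓.p := ⟨𝔓.hp.ne_zero⟩

instance tk_fact : Fact 𝔓.p.Prime := ⟨𝔓.hp⟩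

/-- `y` is a Kummer generator of `a` on the inertia group: `ι y = ζ ^ (a ι) * y` -/
def TkGen (ζ : Qb) (a : GQ → ZMod 𝔓.p) (y : Qb) : Prop :=
  y ≠ 0 ∧ ∀ ι ∈ 𝔓.I, ι y = lfZPow ζ (a ι) * y

variable {𝔓} {ζ : Qb} {a a' : GQ → ZMod 𝔓.p} {y y' : Qb}

lemma TkGen.pow_mem_K0 (hζp : ζ ^ 𝔓.p = 1) (h : 𝔓.TkGen ζ a y) : y ^ 𝔓.p ∈ 𝔓.K0 := by
  rw [mem_K0_iff]
  intro ι hι
  rw [map_pow, h.2 ι hι, mul_pow, lfZPow_pow hζp, one_mul]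

lemma TkGen.pow_ne_zero (h : 𝔓.TkGen ζ a y) : y ^ 𝔓.p ≠ 0 := _root_.pow_ne_zero _ h.1

lemma TkGen.mul (hζp : ζ ^ 𝔓.p = 1) (h : 𝔓.TkGen ζ a y) (h' : 𝔓.TkGen ζ a' y') :
    𝔓.TkGen ζ (a + a') (y * y') := by
  refine ⟨mul_ne_zero h.1 h'.1, fun ι hι => ?_⟩
  rw [map_mul, h.2 ι hι, h'.2 ι hι, Pi.add_apply, lfZPow_add hζp]
  ring

lemma TkGen.congr (h : 𝔓.TkGen ζ a y) (haa : ∀ ι ∈ 𝔓.I, a ι = a' ι) : 𝔓.TkGen ζ a' y :=
  ⟨h.1, fun ι hι => by rw [← haa ι hι]; exact h.2 ι hι⟩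

lemma TkGen.div_mem_K0 (hζp : ζ ^ 𝔓.p = 1) (h : 𝔓.TkGen ζ a y) (h' : 𝔓.TkGen ζ a y') :
    y' / y ∈ 𝔓.K0 := by
  rw [mem_K0_iff]
  intro ι hι
  rw [map_div₀, h.2 ι hι, h'.2 ι hι, mul_div_mul_left _ _ (lfZPow_ne_zero hζp _)]

/-- the invariants of `y ^ p` only depend on `a` -/
lemma TkGen.tkInv_eq (hζp : ζ ^ 𝔓.p = 1) (h : 𝔓.TkGen ζ a y) (h' : 𝔓.TkGen ζ a y') :
    𝔓.tkInv (y' ^ 𝔓.p) = 𝔓.tkInv (y ^ 𝔓.p) := by
  have h1 : y' ^ 𝔓.p = y ^ 𝔓.p * (y' / y) ^ 𝔓.p := by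
    rw [div_pow, mul_div_cancel₀ _ h.pow_ne_zero]
  have h2 : y' / y ≠ 0 := div_ne_zero h'.1 h.1
  rw [h1, 𝔓.tkInv_mul (h.pow_mem_K0 hζp) h.pow_ne_zero
    (pow_mem (h.div_mem_K0 hζp h') _) (_root_.pow_ne_zero _ h2),
    𝔓.tkInv_pow (h.div_mem_K0 hζp h') h2, add_zero]

variable (𝔓)

/-- **existence of Kummer generators** (Hilbert 90) -/
theorem tkGen_exists (hζ : IsPrimitiveRoot ζ 𝔓.p) (ω : GQ → ZMod 𝔓.p)
    (hω : ∀ σ ∈ 𝔓.I, σ ζ = lfZPow ζ (ω σ)) (a : GQ → ZMod 𝔓.p)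
    (hcoc : ∀ σ ∈ 𝔓.I, ∀ τ ∈ 𝔓.I, a (σ * τ) = a σ + ω σ * a τ)
    (F : IntermediateField ℚ Qb) (hF : FiniteDimensional ℚ F)
    (hlev : ∀ σ ∈ 𝔓.I, ∀ τ ∈ 𝔓.I, (∀ x ∈ F, σ x = τ x) → a σ = a τ) :
    ∃ y, 𝔓.TkGen ζ a y := by
  have hζp := hζ.pow_eq_one
  haveI : Algebra.IsAlgebraic ℚ Qb := AlgebraicClosure.isAlgebraic ℚ
  haveI : IsAlgClosure ℚ Qb := ⟨inferInstance, inferInstance⟩
  haveI : Normal ℚ Qb := IsAlgClosure.normal ℚ Qb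
  haveI := hF
  set F₁ : IntermediateField ℚ Qb := F ⊔ IntermediateField.adjoin ℚ {ζ} with hF₁
  haveI : FiniteDimensional ℚ ↥(IntermediateField.adjoin ℚ {ζ}) :=
    IntermediateField.adjoin.finiteDimensional (Algebra.IsIntegral.isIntegral ζ)
  haveI : FiniteDimensional ℚ ↥F₁ := IntermediateField.finiteDimensional_sup _ _
  set F' : IntermediateField ℚ Qb := IntermediateField.normalClosure ℚ ↥F₁ Qb with hF'
  haveI hfd' : FiniteDimensional ℚ ↥F' := normalClosure.is_finiteDimensional ℚ _ Qb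
  have hnorm : Normal ℚ ↥F' := normalClosure.normal ℚ _ Qb
  have hle : F ≤ F' := le_sup_left.trans (IntermediateField.le_normalClosure _)
  have hζF' : ζ ∈ F' := (le_sup_right.trans (IntermediateField.le_normalClosure F₁))
    (IntermediateField.mem_adjoin_simple_self ℚ ζ)
  obtain ⟨y, -, hy0, hy⟩ := tk_hilbert90 𝔓.I F' (fun σ => lfZPow ζ (a σ))
    (fun σ _ => pow_mem hζF' _) (fun σ _ => lfZPow_ne_zero hζp _)
    (fun σ hσ τ hτ => by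
      rw [hcoc σ hσ τ hτ, lfZPow_add hζp, tk_apply_lfZPow hζp σ (hω σ hσ)])
    (fun σ hσ τ hτ hx => by
      rw [hlev σ hσ τ hτ (fun x hxF => hx x (hle hxF))])
  exact ⟨y, hy0, hy⟩

/-- the invariants of the Kummer generators of `a` -/
def tkGenInv (ζ : Qb) (a : GQ → ZMod 𝔓.p) : ZMod 𝔓.p × 𝔓.tkKappa := by
  classical
  exact if h : ∃ y, 𝔓.TkGen ζ a y then 𝔓.tkInv (h.choose ^ 𝔓.p) else 0

variable {𝔓}

lemma TkGen.tkGenInv_eq (hζp : ζ ^ 𝔓.p = 1) (h : 𝔓.TkGen ζ a y) :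
    𝔓.tkGenInv ζ a = 𝔓.tkInv (y ^ 𝔓.p) := by
  have hex : ∃ y, 𝔓.TkGen ζ a y := ⟨y, h⟩
  unfold tkGenInv
  rw [dif_pos hex]
  exact TkGen.tkInv_eq hζp h hex.choose_spec

lemma TkGen.tkGenInv_add (hζp : ζ ^ 𝔓.p = 1) (h : 𝔓.TkGen ζ a y) (h' : 𝔓.TkGen ζ a' y') :
    𝔓.tkGenInv ζ (a + a') = 𝔓.tkGenInv ζ a + 𝔓.tkGenInv ζ a' := by
  rw [(h.mul hζp h').tkGenInv_eq hζp, h.tkGenInv_eq hζp, h'.tkGenInv_eq hζp, mul_pow,
    𝔓.tkInv_mul (h.pow_mem_K0 hζp) h.pow_ne_zero (h'.pow_mem_K0 hζp) h'.pow_ne_zero]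

lemma tkGenInv_congr (hζp : ζ ^ 𝔓.p = 1) (haa : ∀ ι ∈ 𝔓.I, a ι = a' ι) :
    𝔓.tkGenInv ζ a = 𝔓.tkGenInv ζ a' := by
  classical
  by_cases h : ∃ y, 𝔓.TkGen ζ a y
  · obtain ⟨y, hy⟩ := h
    rw [hy.tkGenInv_eq hζp, (hy.congr haa).tkGenInv_eq hζp]
  · have h' : ¬ ∃ y, 𝔓.TkGen ζ a' y := fun ⟨y, hy⟩ =>
      h ⟨y, hy.congr (fun ι hι => (haa ι hι).symm)⟩
    unfold tkGenInv
    rw [dif_neg h, dif_neg h']

/-- the coboundaries have generator `ζ ^ j` -/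
lemma tkGen_cob (hζp : ζ ^ 𝔓.p = 1) (ω : GQ → ZMod 𝔓.p)
    (hω : ∀ σ ∈ 𝔓.I, σ ζ = lfZPow ζ (ω σ)) (j : ZMod 𝔓.p) :
    𝔓.TkGen ζ (fun ι => (ω ι - 1) * j) (lfZPow ζ j) := by
  refine ⟨lfZPow_ne_zero hζp j, fun ι hι => ?_⟩
  rw [tk_apply_lfZPow hζp ι (hω ι hι), ← lfZPow_add hζp]
  congr 1
  ring

/-- **trivial invariants**: if `y ^ p` has trivial invariants then `a` is a coboundary on `I` -/
theorem TkGen.eq_cob_of_tkInv_eq_zero (hp3 : 3 ≤ 𝔓.p) (hζ : IsPrimitiveRoot ζ 𝔓.p)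
    (ω : GQ → ZMod 𝔓.p) (hω : ∀ σ ∈ 𝔓.I, σ ζ = lfZPow ζ (ω σ)) (h : 𝔓.TkGen ζ a y)
    (hinv : 𝔓.tkInv (y ^ 𝔓.p) = 0) : ∃ j : ZMod 𝔓.p, ∀ ι ∈ 𝔓.I, a ι = (ω ι - 1) * j := by
  have hζp := hζ.pow_eq_one
  obtain ⟨s, hs, hs0, hsp⟩ :=
    𝔓.tk_exists_root_of_tkInv_eq_zero hp3 (h.pow_mem_K0 hζp) h.pow_ne_zero hinv
  have h1 : (y / s) ^ 𝔓.p = 1 := by rw [div_pow, hsp, div_self h.pow_ne_zero]
  obtain ⟨j, hj⟩ := lf_exists_eq_lfZPow hζ h1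
  have hy : y = lfZPow ζ j * s := by rw [← hj, div_mul_cancel₀ _ hs0]
  refine ⟨j, fun ι hι => ?_⟩
  have h2 := h.2 ι hι
  have hsι : ι s = s := (𝔓.mem_K0_iff s).1 hs ι hι
  rw [hy, map_mul, hsι, tk_apply_lfZPow hζp ι (hω ι hι), ← mul_assoc, ← lfZPow_add hζp] at h2
  have h3 := mul_right_cancel₀ hs0 h2
  have h4 := tk_lfZPow_injective hζ h3
  rw [sub_mul, one_mul, h4]
  ring

/-- **Frobenius conjugation** of Kummer generators -/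
theorem TkGen.frob (hζp : ζ ^ 𝔓.p = 1) {φ : GQ} (hφD : φ ∈ 𝔓.D) {w : ZMod 𝔓.p}
    (hφζ : φ ζ = lfZPow ζ w) (h : 𝔓.TkGen ζ a y) :
    𝔓.TkGen ζ (fun ι => w * a (φ⁻¹ * ι * φ)) (φ y) := by
  refine ⟨by rw [Ne, EmbeddingLike.map_eq_zero_iff]; exact h.1, fun ι hι => ?_⟩
  have h1 := h.2 _ (𝔓.conj_mem_I' hφD hι)
  have h2 : ι (φ y) = φ ((φ⁻¹ * ι * φ) y) := by
    have : φ * (φ⁻¹ * ι * φ) = ι * φ := by group
    rw [← AlgEquiv.mul_apply φ, this, AlgEquiv.mul_apply]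
  rw [h2, h1, map_mul, tk_apply_lfZPow hζp φ hφζ]

end

end FFPlace

end Fermat.Agent.TW
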