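/-
P10 / G7 WP-D (helper8): a counting lemma for Frobenius-semilinear conditions.

If `k` is a finite field of characteristic `p`, `κ` any field of characteristic `p` and `β ∈ kˣ`,
there are at most `|k|` additive maps `x : k → κ` with `x (β b) = x b ^ p` for all `b`
(`tk_card_semilinear_le`).  The proof: such maps form an `𝔽_p`-vector space, and `𝔽_p`-linearly
independent ones are `κ`-linearly independent (`tk_semilinear_indep`, the usual "minimal relation"
argument), inside the `κ`-vector space `Hom_{𝔽_p}(k, κ)` of dimension `[k : 𝔽_p]`.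
-/
import Mathlib

set_option autoImplicit false
set_option linter.style.haveILetI false

namespace Fermat.Agent.TW

open Finset

/-- **`𝔽_p`-independent Frobenius-semilinear functions are `κ`-independent** -/
theorem tk_semilinear_indep (p : ℕ) [Fact p.Prime] {κ : Type*} [Field κ] [CharP κ p]
    {B : Type*} (σ : B → B) (hσ : Function.Surjective σ) {ι : Type*} [Fintype ι]
    (x : ι → B → κ) (hx : ∀ i b, x i (σ b) = (x i b) ^ p)
    (hind : ∀ c : ι → ℤ, (∀ b, ∑ i, (c i : κ) * x i b = 0) → ∀ i, (c i : κ) = 0)
    (c : ι → κ) (hc : ∀ b, ∑ i, c i * x i b = 0) : c = 0 := by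
  classical
  suffices H : ∀ N : ℕ, ∀ c : ι → κ, (univ.filter (fun i => c i ≠ 0)).card = N →
      (∀ b, ∑ i, c i * x i b = 0) → c = 0 from H _ c rfl hc
  intro N
  induction N using Nat.strong_induction_on with
  | _ N ih =>
    intro c hN hc
    by_contra hne
    obtain ⟨i₀, hi₀⟩ : ∃ i, c i ≠ 0 := by
      by_contra h
      push Not at h
      exact hne (funext h)
    set c₁ : ι → κ := fun i => c i / c i₀ with hc₁def
    have hc₁ : ∀ b, ∑ i, c₁ i * x i b = 0 := by
      intro b
      simp only [hc₁def, div_mul_eq_mul_div]
      rw [← Finset.sum_div, hc b, zero_div]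
    have hc₁i₀ : c₁ i₀ = 1 := div_self hi₀
    set c' : ι → κ := fun i => c₁ i ^ p - c₁ i with hc'def
    have hc' : ∀ b, ∑ i, c' i * x i b = 0 := by
      intro b
      obtain ⟨b', rfl⟩ := hσ b
      have h1 : ∑ i, c₁ i ^ p * x i (σ b') = (∑ i, c₁ i * x i b') ^ p := by
        rw [sum_pow_char]
        refine Finset.sum_congr rfl fun i _ => ?_
        rw [hx, mul_pow]
      simp only [hc'def, sub_mul, Finset.sum_sub_distrib]
      rw [h1, hc₁ b', hc₁ (σ b'), zero_pow (Fact.out : p.Prime).ne_zero, sub_zero]
    have hsub : univ.filter (fun i => c' i ≠ 0) ⊆ univ.filter (fun i => c i ≠ 0) := by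
      intro i hi
      rw [Finset.mem_filter] at hi ⊢
      refine ⟨hi.1, fun h0 => hi.2 ?_⟩
      simp only [hc'def, hc₁def, h0, zero_div, zero_pow (Fact.out : p.Prime).ne_zero, sub_zero]
    have hsupp : (univ.filter (fun i => c' i ≠ 0)).card < N := by
      rw [← hN]
      apply Finset.card_lt_card
      rw [Finset.ssubset_iff_of_subset hsub]
      refine ⟨i₀, by simp [hi₀], ?_⟩
      simp only [hc'def, hc₁i₀, one_pow, sub_self, Finset.mem_filter, ne_eq, not_true_eq_false,
        and_false, not_false_eq_true]
    have hc'0 := ih _ hsupp c' rfl hc'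
    have hprime : ∀ i, ∃ n : ℤ, (n : κ) = c₁ i := fun i =>
      (mem_bot_iff_intCast p κ).1 ((Subfield.mem_bot_iff_pow_eq_self κ p).2
        (sub_eq_zero.1 (congrFun hc'0 i)))
    choose m hm using hprime
    have := hind m (by intro b; simp only [hm]; exact hc₁ b) i₀
    rw [hm, hc₁i₀] at this
    exact one_ne_zero this

section Count

variable (p : ℕ) [Fact p.Prime] {k : Type*} [Field k] [Finite k] [CharP k p]
  {κ : Type*} [Field κ] [CharP κ p]

/-- **the counting lemma**: at most `|k|` additive maps `x : k → κ` satisfy
`x (β b) = x b ^ p`. -/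
theorem tk_card_semilinear_le (β : k) (hβ : β ≠ 0) :
    Finite {x : k → κ // (∀ a b, x (a + b) = x a + x b) ∧ ∀ b, x (β * b) = x b ^ p} ∧
    Nat.card {x : k → κ // (∀ a b, x (a + b) = x a + x b) ∧ ∀ b, x (β * b) = x b ^ p} ≤
      Nat.card k := by
  classical
  letI : Algebra (ZMod p) k := ZMod.algebra k p
  letI : Algebra (ZMod p) κ := ZMod.algebra κ p
  haveI : Module.Finite (ZMod p) k := Module.Finite.of_finite
  -- the space of solutions
  let S : Submodule (ZMod p) (k →ₗ[ZMod p] κ) :=
    { carrier := {x | ∀ b, x (β * b) = x b ^ p}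
      add_mem' := by
        intro x y hx hy b
        change ∀ b, x (β * b) = x b ^ p at hx
        change ∀ b, y (β * b) = y b ^ p at hy
        rw [LinearMap.add_apply, LinearMap.add_apply, hx, hy, add_pow_char]
      zero_mem' := by
        intro b
        simp only [LinearMap.zero_apply, zero_pow (Fact.out : p.Prime).ne_zero]
      smul_mem' := by
        intro m x hx b
        change ∀ b, x (β * b) = x b ^ p at hx
        rw [LinearMap.smul_apply, LinearMap.smul_apply, hx, Algebra.smul_def, Algebra.smul_def,
          mul_pow, ← map_pow (algebraMap (ZMod p) κ), ZMod.pow_card] }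
  set d := Module.finrank (ZMod p) k with hd
  have hrank : Module.rank (ZMod p) S ≤ (d : Cardinal) := by
    apply rank_le
    intro s hli
    -- the family is `κ`-linearly independent
    have hκ : LinearIndependent κ (fun i : s => ((i : S) : k →ₗ[ZMod p] κ)) := by
      rw [Fintype.linearIndependent_iff]
      intro c hc i
      have hfun : c = 0 := by
        refine tk_semilinear_indep p (fun b : k => β * b) ?_
          (fun (i : s) (b : k) => ((i : S) : k →ₗ[ZMod p] κ) b) ?_ ?_ c ?_
        · intro b
          exact ⟨β⁻¹ * b, by simp [mul_inv_cancel_left₀ hβ]⟩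
        · intro i b
          exact (i : S).2 b
        · intro m hm
          have h1 : ∑ i : s, ((m i : ℤ) : ZMod p) • (i : S) = 0 := by
            apply Subtype.ext
            apply LinearMap.ext
            intro b
            rw [Submodule.coe_sum, LinearMap.sum_apply]
            simp only [Submodule.coe_smul, LinearMap.smul_apply, Submodule.coe_zero,
              LinearMap.zero_apply, Algebra.smul_def, map_intCast]
            exact hm b
          have h2 := (Fintype.linearIndependent_iff.1 hli) (fun i => ((m i : ℤ) : ZMod p)) h1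
          intro i
          have h3 := h2 i
          rw [ZMod.intCast_zmod_eq_zero_iff_dvd] at h3
          exact (CharP.intCast_eq_zero_iff κ p _).2 h3
        · intro b
          have := congrArg (fun f : k →ₗ[ZMod p] κ => f b) hc
          simp only [LinearMap.sum_apply, LinearMap.smul_apply, LinearMap.zero_apply,
            smul_eq_mul] at this
          exact this
      rw [hfun]; rfl
    have h1 := hκ.fintype_card_le_finrank
    rw [Fintype.card_coe, Module.finrank_linearMap_self] at h1
    exact h1
  haveI hSfin : Module.Finite (ZMod p) S :=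
    Module.rank_lt_aleph0_iff.1 (lt_of_le_of_lt hrank Cardinal.natCast_lt_aleph0)
  have hSrk : Module.finrank (ZMod p) S ≤ d := Module.finrank_le_of_rank_le hrank
  haveI : Finite S := Module.finite_of_finite (ZMod p)
  have hcardS : Nat.card S ≤ Nat.card k := by
    rw [Module.natCard_eq_pow_finrank (K := ZMod p) (V := S),
      Module.natCard_eq_pow_finrank (K := ZMod p) (V := k)]
    exact Nat.pow_le_pow_right (by rw [Nat.card_zmod]; exact (Fact.out : p.Prime).pos) hSrk
  -- the injection
  let T := {x : k → κ // (∀ a b, x (a + b) = x a + x b) ∧ ∀ b, x (β * b) = x b ^ p}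
  let f : T → S := fun x =>
    ⟨(AddMonoidHom.mk' x.1 x.2.1).toZModLinearMap p, fun b => x.2.2 b⟩
  have hf : Function.Injective f := by
    intro x y hxy
    apply Subtype.ext
    funext b
    have := congrArg (fun s : S => (s : k →ₗ[ZMod p] κ) b) hxy
    exact this
  exact ⟨Finite.of_injective f hf, (Nat.card_le_card_of_injective f hf).trans hcardS⟩

end Count

end Fermat.Agent.TW
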