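/-
P10 / G7 WP-D (helper8): the Kummer upper bounds for `H¹_cont(G_p, k(χ))`, `χ|_I = ω`.

Layer A (abstract place `𝔓`, local Galois group `primeLocalGaloisGroup q` mapping onto `𝔓.D`): for
a `TkSetup` `S`,

* `tk_finrank_locCont_le_two`: `dim H¹_cont(G_q, k(χ)) ≤ 2`;
* `tkPeuClasses` (the "peu ramifié" classes: all Kummer generators have valuation in `p ℤ`) and
  `tk_finrank_peuClasses_le_one`: `dim H¹_peu(G_q, k(χ)) ≤ 1`;
* `tk_finrank_locCont_le_one`: `dim H¹_cont(G_q, k(χ)) ≤ 1` if `β = ω(φ) χ(φ)⁻¹ ≠ 1`.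
-/
import Fermat.Agent.Lib.TW.Kum.Core
import Fermat.Agent.Lib.TW.Kum.Semilinear
import Fermat.Agent.Lib.TW.Local.LineClasses

set_option autoImplicit false
set_option linter.style.haveILetI false

open Fermat.Agent.S53Lib groupCohomology ExtCitation CategoryTheory

namespace Fermat.Agent.TW

noncomputable section

local notation "Qb" => AlgebraicClosure ℚ

/-- a finite vector space over a finite field with at most `|k| ^ n` elements has dimension
`≤ n` -/
theorem tk_finrank_le_of_card_le {k V : Type*} [Field k] [Finite k] [AddCommGroup V] [Module k V]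
    [Finite V] (n : ℕ) (h : Nat.card V ≤ Nat.card k ^ n) :
    FiniteDimensional k V ∧ Module.finrank k V ≤ n := by
  haveI : Module.Finite k V := Module.Finite.of_finite
  refine ⟨inferInstance, ?_⟩
  rw [Module.natCard_eq_pow_finrank (K := k) (V := V)] at h
  exact (Nat.pow_le_pow_iff_right Finite.one_lt_card).1 h

/-- descent of a function on the local Galois group to `G_ℚ` (zero outside the image) -/
def tkDesc (q : Nat.Primes) {X : Type*} [Zero X] (g : primeLocalGaloisGroup q → X) (σ : GQ) :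
    X := by
  classical
  exact if h : ∃ τ, primeLocalToGlobal q τ = σ then g h.choose else 0

theorem tkDesc_apply (q : Nat.Primes) {X : Type*} [Zero X] {g : primeLocalGaloisGroup q → X}
    (hg : IsLevelConstant₁ (primeLocalToGlobal q) g) (τ : primeLocalGaloisGroup q) :
    tkDesc q g (primeLocalToGlobal q τ) = g τ := by
  obtain ⟨F, -, hF⟩ := hg
  have hex : ∃ τ', primeLocalToGlobal q τ' = primeLocalToGlobal q τ := ⟨τ, rfl⟩
  unfold tkDesc
  rw [dif_pos hex]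
  have h1 := hex.choose_spec
  calc g hex.choose = g (τ * (τ⁻¹ * hex.choose)) := by congr 1; group
    _ = g τ := hF τ _ (by rw [map_mul, map_inv, h1, inv_mul_cancel]; exact one_mem _)

theorem tkDesc_add (q : Nat.Primes) {X : Type*} [AddMonoid X]
    (g g' : primeLocalGaloisGroup q → X) : tkDesc q (g + g') = tkDesc q g + tkDesc q g' := by
  funext σ
  unfold tkDesc
  by_cases h : ∃ τ, primeLocalToGlobal q τ = σ
  · simp only [Pi.add_apply, dif_pos h]
  · simp only [Pi.add_apply, dif_neg h, add_zero]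

theorem tkDesc_sub (q : Nat.Primes) {X : Type*} [AddGroup X]
    (g g' : primeLocalGaloisGroup q → X) : tkDesc q (g - g') = tkDesc q g - tkDesc q g' := by
  funext σ
  unfold tkDesc
  by_cases h : ∃ τ, primeLocalToGlobal q τ = σ
  · simp only [Pi.sub_apply, dif_pos h]
  · simp only [Pi.sub_apply, dif_neg h, sub_zero]

theorem tkDesc_smul (q : Nat.Primes) {k : Type*} [Field k] (x : k)
    (g : primeLocalGaloisGroup q → k) : tkDesc q (x • g) = x • tkDesc q g := by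
  funext σ
  unfold tkDesc
  by_cases h : ∃ τ, primeLocalToGlobal q τ = σ
  · simp only [Pi.smul_apply, dif_pos h]
  · simp only [Pi.smul_apply, dif_neg h, smul_zero]

theorem tkDesc_zero (q : Nat.Primes) {X : Type*} [Zero X] :
    tkDesc q (0 : primeLocalGaloisGroup q → X) = 0 := by
  funext σ
  unfold tkDesc
  by_cases h : ∃ τ, primeLocalToGlobal q τ = σ
  · simp only [Pi.zero_apply, dif_pos h]
  · simp only [Pi.zero_apply, dif_neg h]

section LayerA

variable {𝔓 : FFPlace} {k : Type} [Field k] [Algebra (ZMod 𝔓.p) k] (S : TkSetup 𝔓 k)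
  (q : Nat.Primes)

/-- the local Galois group maps onto the decomposition group of the place -/
def TkOnto (𝔓 : FFPlace) (q : Nat.Primes) : Prop :=
  (∀ τ : primeLocalGaloisGroup q, primeLocalToGlobal q τ ∈ 𝔓.D) ∧
    ∀ σ ∈ 𝔓.D, ∃ τ : primeLocalGaloisGroup q, primeLocalToGlobal q τ = σ

variable {S q}

/-- the descent of a level-constant cocycle of `k(χ)` is a cocycle of the decomposition group -/
theorem tkDesc_coc (hq : TkOnto 𝔓 q) {γ : cocycles₁ (locAt q (twCharRep S.χ))}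
    (hγ : IsLevelConstant₁ (primeLocalToGlobal q) γ) : S.Coc (tkDesc q (twCoef γ)) := by
  have hγ' : IsLevelConstant₁ (primeLocalToGlobal q) (twCoef γ) := hγ
  refine ⟨?_, ?_⟩
  · intro σ hσ τ hτ
    obtain ⟨s, rfl⟩ := hq.2 σ hσ
    obtain ⟨t, rfl⟩ := hq.2 τ hτ
    rw [← map_mul, tkDesc_apply q hγ', tkDesc_apply q hγ', tkDesc_apply q hγ', twCoef_mul]
  · obtain ⟨F, hF, hFc⟩ := hγ'
    refine ⟨F, hF, fun σ hσ τ hτ hx => ?_⟩
    obtain ⟨s, rfl⟩ := hq.2 σ hσ
    obtain ⟨t, rfl⟩ := hq.2 τ hτ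
    rw [tkDesc_apply q ⟨F, hF, hFc⟩, tkDesc_apply q ⟨F, hF, hFc⟩]
    have h1 : t = s * (s⁻¹ * t) := by group
    rw [h1]
    refine (hFc s _ ?_).symm
    rw [IntermediateField.mem_fixingSubgroup_iff]
    intro x hxF
    rw [map_mul, map_inv]
    show (primeLocalToGlobal q s)⁻¹ (primeLocalToGlobal q t x) = x
    rw [← hx x hxF]
    exact (primeLocalToGlobal q s).symm_apply_apply x

/-- a cocycle whose descent is a coboundary on `D` is a coboundary -/
theorem tk_H1π_eq_zero (hq : TkOnto 𝔓 q) {γ : cocycles₁ (locAt q (twCharRep S.χ))}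
    (hγ : IsLevelConstant₁ (primeLocalToGlobal q) γ) (m : k)
    (hm : ∀ σ ∈ 𝔓.D, tkDesc q (twCoef γ) σ = (((S.χ σ : kˣ) : k) - 1) * m) :
    (H1π (locAt q (twCharRep S.χ))).hom γ = 0 := by
  have hγ' : IsLevelConstant₁ (primeLocalToGlobal q) (twCoef γ) := hγ
  rw [H1π_eq_zero_iff]
  let m' : (locAt q (twCharRep S.χ)).V := m
  refine ⟨m', ?_⟩
  funext τ
  rw [d₀₁_hom_apply]
  have h1 := hm _ (hq.1 τ)
  rw [tkDesc_apply q hγ'] at h1
  show ((S.χ (primeLocalToGlobal q τ) : kˣ) : k) * m - m = twCoef γ τ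
  rw [h1]
  ring

variable (S q)

/-- the first (valuation) component of the Kummer invariants -/
def tkTheta1 (γ : cocycles₁ (locAt q (twCharRep S.χ))) (b : k) : ZMod 𝔓.p :=
  (S.theta (tkDesc q (twCoef γ)) b).1

/-- the second (residue) component of the Kummer invariants -/
def tkTheta2 (γ : cocycles₁ (locAt q (twCharRep S.χ))) (b : k) : 𝔓.tkKappa :=
  (S.theta (tkDesc q (twCoef γ)) b).2

variable {S q}

theorem tk_twCoef_add (γ γ' : cocycles₁ (locAt q (twCharRep S.χ))) :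
    twCoef (γ + γ') = twCoef γ + twCoef γ' := rfl

theorem tk_twCoef_sub (γ γ' : cocycles₁ (locAt q (twCharRep S.χ))) :
    twCoef (γ - γ') = twCoef γ - twCoef γ' := rfl

theorem tk_twCoef_smul (x : k) (γ : cocycles₁ (locAt q (twCharRep S.χ))) :
    twCoef (x • γ) = x • twCoef γ := rfl

theorem tk_theta_add (hq : TkOnto 𝔓 q) {γ γ' : cocycles₁ (locAt q (twCharRep S.χ))}
    (hγ : IsLevelConstant₁ (primeLocalToGlobal q) γ)
    (hγ' : IsLevelConstant₁ (primeLocalToGlobal q) γ') (b : k) :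
    S.theta (tkDesc q (twCoef (γ + γ'))) b =
      S.theta (tkDesc q (twCoef γ)) b + S.theta (tkDesc q (twCoef γ')) b := by
  rw [tk_twCoef_add, tkDesc_add]
  exact (tkDesc_coc hq hγ).theta_add (tkDesc_coc hq hγ') b

theorem tk_theta_sub (hq : TkOnto 𝔓 q) {γ γ' : cocycles₁ (locAt q (twCharRep S.χ))}
    (hγ : IsLevelConstant₁ (primeLocalToGlobal q) γ)
    (hγ' : IsLevelConstant₁ (primeLocalToGlobal q) γ') (b : k) :
    S.theta (tkDesc q (twCoef (γ - γ'))) b =
      S.theta (tkDesc q (twCoef γ)) b - S.theta (tkDesc q (twCoef γ')) b := by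
  rw [tk_twCoef_sub, tkDesc_sub]
  exact (tkDesc_coc hq hγ).theta_sub (tkDesc_coc hq hγ') b

/-- **the Kummer invariants detect the class** -/
theorem tk_H1π_eq_of_theta_eq (hp3 : 3 ≤ 𝔓.p) (hq : TkOnto 𝔓 q)
    {γ γ' : cocycles₁ (locAt q (twCharRep S.χ))}
    (hγ : IsLevelConstant₁ (primeLocalToGlobal q) γ)
    (hγ' : IsLevelConstant₁ (primeLocalToGlobal q) γ')
    (h : ∀ b, S.theta (tkDesc q (twCoef γ)) b = S.theta (tkDesc q (twCoef γ')) b) :
    (H1π (locAt q (twCharRep S.χ))).hom γ = (H1π (locAt q (twCharRep S.χ))).hom γ' := by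
  have hsub : IsLevelConstant₁ (primeLocalToGlobal q) (γ - γ' : cocycles₁ _) :=
    (levelCocycles₁ (primeLocalToGlobal q) (locAt q (twCharRep S.χ))).sub_mem hγ hγ'
  have h0 : ∀ b, S.theta (tkDesc q (twCoef (γ - γ'))) b = 0 := by
    intro b
    rw [tk_theta_sub hq hγ hγ', h b, sub_self]
  obtain ⟨m, hm⟩ := (tkDesc_coc hq hsub).eq_cob_of_theta_eq_zero hp3 h0
  have := tk_H1π_eq_zero hq hsub m hm
  rw [map_sub, sub_eq_zero] at this
  exact this


/-! ### Counting -/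

lemma TkSetup.omega_phi_ne_zero (hp3 : 3 ≤ 𝔓.p) : S.ω S.φ ≠ 0 := by
  intro h0
  have h1 := S.hω S.φ
  rw [h0, lfZPow_zero] at h1
  have h2 : S.ζ = 1 := by
    have := congrArg S.φ.symm h1
    rwa [AlgEquiv.symm_apply_apply, map_one] at this
  exact S.hζ.ne_one (by omega) h2

lemma TkSetup.beta_ne_zero (hp3 : 3 ≤ 𝔓.p) : S.beta ≠ 0 := by
  unfold TkSetup.beta
  refine mul_ne_zero ?_ (Units.ne_zero _)
  rw [Ne, map_eq_zero_iff _ (algebraMap (ZMod 𝔓.p) k).injective]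
  exact S.omega_phi_ne_zero hp3

variable (S) in
/-- the additive maps `x : k → κ` with `x (β b) = x b ^ p` -/
abbrev TkSemi (κ : Type*) [Field κ] : Type _ :=
  {x : k → κ // (∀ a b, x (a + b) = x a + x b) ∧ ∀ b, x (S.beta * b) = x b ^ 𝔓.p}

theorem tkTheta1_mem (hq : TkOnto 𝔓 q) {γ : cocycles₁ (locAt q (twCharRep S.χ))}
    (hγ : IsLevelConstant₁ (primeLocalToGlobal q) γ) :
    (∀ a b, tkTheta1 S q γ (a + b) = tkTheta1 S q γ a + tkTheta1 S q γ b) ∧
      ∀ b, tkTheta1 S q γ (S.beta * b) = tkTheta1 S q γ b ^ 𝔓.p := by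
  have hc := tkDesc_coc hq hγ
  refine ⟨fun a b => ?_, fun b => ?_⟩
  · unfold tkTheta1
    rw [hc.theta_add_right]
    rfl
  · unfold tkTheta1
    rw [hc.theta_frob, ZMod.pow_card]

theorem tkTheta2_mem (hq : TkOnto 𝔓 q) {γ : cocycles₁ (locAt q (twCharRep S.χ))}
    (hγ : IsLevelConstant₁ (primeLocalToGlobal q) γ) :
    (∀ a b, tkTheta2 S q γ (a + b) = tkTheta2 S q γ a + tkTheta2 S q γ b) ∧
      ∀ b, tkTheta2 S q γ (S.beta * b) = tkTheta2 S q γ b ^ 𝔓.p := by
  have hc := tkDesc_coc hq hγ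
  refine ⟨fun a b => ?_, fun b => ?_⟩
  · unfold tkTheta2
    rw [hc.theta_add_right]
    rfl
  · unfold tkTheta2
    rw [hc.theta_frob]

section Finite

variable [Finite k]

omit [Finite k] in
lemma tk_charP_k : CharP k 𝔓.p :=
  charP_of_injective_algebraMap (algebraMap (ZMod 𝔓.p) k).injective 𝔓.p

variable (S q) in
/-- **`dim H¹_cont(G_q, k(χ)) ≤ 2`** -/
theorem tk_finrank_locCont_le_two (hp3 : 3 ≤ 𝔓.p) (hq : TkOnto 𝔓 q) :
    FiniteDimensional k (locCont q (twCharRep S.χ)) ∧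
      Module.finrank k (locCont q (twCharRep S.χ)) ≤ 2 := by
  have hx : ∀ x : locCont q (twCharRep S.χ), ∃ γ : cocycles₁ (locAt q (twCharRep S.χ)),
      IsLevelConstant₁ (primeLocalToGlobal q) γ ∧
        (H1π (locAt q (twCharRep S.χ))).hom γ = (x : H1 (locAt q (twCharRep S.χ))) :=
    fun x => (mem_continuousH1_iff _ _ _).1 x.2
  choose γ hγ hπ using hx
  haveI : CharP k 𝔓.p := tk_charP_k
  obtain ⟨hfin1, hcard1⟩ := tk_card_semilinear_le (k := k) (κ := ZMod 𝔓.p) 𝔓.p S.beta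
    (S.beta_ne_zero hp3)
  obtain ⟨hfin2, hcard2⟩ := tk_card_semilinear_le (k := k) (κ := 𝔓.tkKappa) 𝔓.p S.beta
    (S.beta_ne_zero hp3)
  let Ψ : locCont q (twCharRep S.χ) → TkSemi S (ZMod 𝔓.p) × TkSemi S 𝔓.tkKappa := fun x =>
    (⟨tkTheta1 S q (γ x), tkTheta1_mem hq (hγ x)⟩, ⟨tkTheta2 S q (γ x), tkTheta2_mem hq (hγ x)⟩)
  have hΨ : Function.Injective Ψ := by
    intro x y hxy
    have h1 : tkTheta1 S q (γ x) = tkTheta1 S q (γ y) :=
      congrArg (fun t => (t.1 : k → ZMod 𝔓.p)) hxy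
    have h2 : tkTheta2 S q (γ x) = tkTheta2 S q (γ y) :=
      congrArg (fun t => (t.2 : k → 𝔓.tkKappa)) hxy
    have h3 := tk_H1π_eq_of_theta_eq hp3 hq (hγ x) (hγ y)
      (fun b => Prod.ext (congrFun h1 b) (congrFun h2 b))
    apply Subtype.ext
    rw [← hπ x, ← hπ y, h3]
  haveI := hfin1
  haveI := hfin2
  haveI : Finite (locCont q (twCharRep S.χ)) := Finite.of_injective Ψ hΨ
  apply tk_finrank_le_of_card_le
  calc Nat.card (locCont q (twCharRep S.χ))
      ≤ Nat.card (TkSemi S (ZMod 𝔓.p) × TkSemi S 𝔓.tkKappa) :=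
        Nat.card_le_card_of_injective Ψ hΨ
    _ = Nat.card (TkSemi S (ZMod 𝔓.p)) * Nat.card (TkSemi S 𝔓.tkKappa) := Nat.card_prod _ _
    _ ≤ Nat.card k * Nat.card k := Nat.mul_le_mul hcard1 hcard2
    _ = Nat.card k ^ 2 := (sq _).symm

variable (S q) in
/-- the level-constant cocycles of `k(χ)` all of whose Kummer generators have valuation in
`p ℤ` ("peu ramifié") -/
def tkPeuCocycles (hq : TkOnto 𝔓 q) : Submodule k (cocycles₁ (locAt q (twCharRep S.χ))) where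
  carrier := {γ | IsLevelConstant₁ (primeLocalToGlobal q) γ ∧ ∀ b, tkTheta1 S q γ b = 0}
  add_mem' := by
    rintro γ γ' ⟨h1, h2⟩ ⟨h1', h2'⟩
    refine ⟨(levelCocycles₁ (primeLocalToGlobal q) _).add_mem h1 h1', fun b => ?_⟩
    unfold tkTheta1
    rw [tk_theta_add hq h1 h1']
    show (S.theta _ b).1 + (S.theta _ b).1 = 0
    have e1 : (S.theta (tkDesc q (twCoef γ)) b).1 = 0 := h2 b
    have e2 : (S.theta (tkDesc q (twCoef γ')) b).1 = 0 := h2' b
    rw [e1, e2, add_zero]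
  zero_mem' := by
    refine ⟨(levelCocycles₁ (primeLocalToGlobal q) _).zero_mem, fun b => ?_⟩
    unfold tkTheta1
    have : twCoef (0 : cocycles₁ (locAt q (twCharRep S.χ))) = 0 := rfl
    rw [this, tkDesc_zero, S.theta_zero]
    rfl
  smul_mem' := by
    rintro x γ ⟨h1, h2⟩
    refine ⟨(levelCocycles₁ (primeLocalToGlobal q) _).smul_mem x h1, fun b => ?_⟩
    unfold tkTheta1
    rw [tk_twCoef_smul, tkDesc_smul, S.theta_smul]
    exact h2 (b * x)

variable (S q) in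
/-- the peu ramifié classes -/
def tkPeuClasses (hq : TkOnto 𝔓 q) : Submodule k (H1 (locAt q (twCharRep S.χ))) :=
  (tkPeuCocycles S q hq).map (H1π (locAt q (twCharRep S.χ))).hom

omit [Finite k] in
theorem mem_tkPeuClasses_iff (hq : TkOnto 𝔓 q) (x : H1 (locAt q (twCharRep S.χ))) :
    x ∈ tkPeuClasses S q hq ↔ ∃ γ : cocycles₁ (locAt q (twCharRep S.χ)),
      IsLevelConstant₁ (primeLocalToGlobal q) γ ∧ (∀ b, tkTheta1 S q γ b = 0) ∧
        (H1π (locAt q (twCharRep S.χ))).hom γ = x := by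
  unfold tkPeuClasses
  rw [Submodule.mem_map]
  constructor
  · rintro ⟨γ, ⟨h1, h2⟩, h3⟩
    exact ⟨γ, h1, h2, h3⟩
  · rintro ⟨γ, h1, h2, h3⟩
    exact ⟨γ, ⟨h1, h2⟩, h3⟩

omit [Finite k] in
theorem tkPeuClasses_le_locCont (hq : TkOnto 𝔓 q) :
    tkPeuClasses S q hq ≤ locCont q (twCharRep S.χ) := by
  intro x hx
  obtain ⟨γ, h1, -, h3⟩ := (mem_tkPeuClasses_iff hq x).1 hx
  exact (mem_continuousH1_iff _ _ _).2 ⟨γ, h1, h3⟩

variable (S q) in
/-- **`dim H¹_peu(G_q, k(χ)) ≤ 1`** -/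
theorem tk_finrank_peuClasses_le_one (hp3 : 3 ≤ 𝔓.p) (hq : TkOnto 𝔓 q) :
    FiniteDimensional k (tkPeuClasses S q hq) ∧
      Module.finrank k (tkPeuClasses S q hq) ≤ 1 := by
  have hx : ∀ x : tkPeuClasses S q hq, ∃ γ : cocycles₁ (locAt q (twCharRep S.χ)),
      IsLevelConstant₁ (primeLocalToGlobal q) γ ∧ (∀ b, tkTheta1 S q γ b = 0) ∧
        (H1π (locAt q (twCharRep S.χ))).hom γ = (x : H1 (locAt q (twCharRep S.χ))) :=
    fun x => (mem_tkPeuClasses_iff hq _).1 x.2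
  choose γ hγ hγ0 hπ using hx
  haveI : CharP k 𝔓.p := tk_charP_k
  obtain ⟨hfin2, hcard2⟩ := tk_card_semilinear_le (k := k) (κ := 𝔓.tkKappa) 𝔓.p S.beta
    (S.beta_ne_zero hp3)
  let Ψ : tkPeuClasses S q hq → TkSemi S 𝔓.tkKappa := fun x =>
    ⟨tkTheta2 S q (γ x), tkTheta2_mem hq (hγ x)⟩
  have hΨ : Function.Injective Ψ := by
    intro x y hxy
    have h2 : tkTheta2 S q (γ x) = tkTheta2 S q (γ y) :=
      congrArg (fun t : TkSemi S 𝔓.tkKappa => (t.1 : k → 𝔓.tkKappa)) hxy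
    have h3 := tk_H1π_eq_of_theta_eq hp3 hq (hγ x) (hγ y)
      (fun b => Prod.ext ((hγ0 x b).trans (hγ0 y b).symm) (congrFun h2 b))
    apply Subtype.ext
    rw [← hπ x, ← hπ y, h3]
  haveI := hfin2
  haveI : Finite (tkPeuClasses S q hq) := Finite.of_injective Ψ hΨ
  apply tk_finrank_le_of_card_le
  calc Nat.card (tkPeuClasses S q hq) ≤ Nat.card (TkSemi S 𝔓.tkKappa) :=
        Nat.card_le_card_of_injective Ψ hΨ
    _ ≤ Nat.card k := hcard2
    _ = Nat.card k ^ 1 := (pow_one _).symm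

omit [Finite k] in
/-- if `β ≠ 1` every class is peu ramifié -/
theorem tk_locCont_le_peuClasses (hq : TkOnto 𝔓 q) (hβ : S.beta ≠ 1) :
    locCont q (twCharRep S.χ) ≤ tkPeuClasses S q hq := by
  intro x hx
  obtain ⟨γ, hγ, hπ⟩ := (mem_continuousH1_iff _ _ _).1 hx
  refine (mem_tkPeuClasses_iff hq x).2 ⟨γ, hγ, ?_, hπ⟩
  obtain ⟨hadd, hfrob⟩ := tkTheta1_mem hq hγ
  have hu : S.beta - 1 ≠ 0 := sub_ne_zero.2 hβ
  have h1 : ∀ b, tkTheta1 S q γ ((S.beta - 1) * b) = 0 := by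
    intro b
    have h2 := hadd ((S.beta - 1) * b) b
    have h3 : (S.beta - 1) * b + b = S.beta * b := by ring
    rw [h3, hfrob, ZMod.pow_card] at h2
    exact (left_eq_add.1 (h2.trans (add_comm _ _))).symm ▸ rfl
  intro b
  have := h1 ((S.beta - 1)⁻¹ * b)
  rwa [mul_inv_cancel_left₀ hu] at this

variable (S q) in
/-- **`dim H¹_cont(G_q, k(χ)) ≤ 1`** if `β ≠ 1` -/
theorem tk_finrank_locCont_le_one (hp3 : 3 ≤ 𝔓.p) (hq : TkOnto 𝔓 q) (hβ : S.beta ≠ 1) :
    FiniteDimensional k (locCont q (twCharRep S.χ)) ∧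
      Module.finrank k (locCont q (twCharRep S.χ)) ≤ 1 := by
  obtain ⟨hfd, hrk⟩ := tk_finrank_peuClasses_le_one S q hp3 hq
  haveI := hfd
  have hle := tk_locCont_le_peuClasses hq hβ
  exact ⟨Submodule.finiteDimensional_of_le hle, (Submodule.finrank_mono hle).trans hrk⟩

end Finite

end LayerA

end

end Fermat.Agent.TW
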