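/-
P10 / G7 WP-D (helper8): the Kummer upper bounds at the place `ffPlaceAt p`.

* `tk_exists_setup`: a `TkSetup` for every character `χ : G_ℚ → kˣ` which agrees with the mod `p`
  cyclotomic character on the inertia group at `p`;
* **`tk_finrank_locCont_charRep_le_two`**: `dim H¹_cont(G_p, k(χ)) ≤ 2` for such `χ`;
* **`tk_R3`**: `dim H¹_cont(G_p, k(ω)) ≤ 2` (item (O5)/R3 of the `S56` assembly).
-/
import Fermat.Agent.Lib.TW.Kum.Count
import Fermat.Agent.Lib.TW.Flat.Place
import Fermat.Agent.Lib.TW.Local.LocalFinal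
import Fermat.Agent.Lib.TW.Local.CycloRamified
import Fermat.Agent.Lib.FrobDensity.Main

set_option autoImplicit false
set_option linter.style.haveILetI false

open Fermat.Agent.S53Lib groupCohomology ExtCitation CategoryTheory

namespace Fermat.Agent.TW

noncomputable section

local notation "Qb" => AlgebraicClosure ℚ

/-- the local Galois group at `p` maps onto the decomposition group of `ffPlaceAt p` -/
theorem tk_onto (p : ℕ) [Fact p.Prime] : TkOnto (ffPlaceAt p) (pPrime p) :=
  ⟨fun τ => tw_primeLocalToGlobal_mem_decomp (pPrime p) τ, tw_localSurj (pPrime p)⟩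

/-- a nondegenerate `𝔽_p`-linear form on a finite field -/
theorem tk_exists_lam (p : ℕ) [Fact p.Prime] (k : Type) [Field k] [Finite k]
    [Algebra (ZMod p) k] :
    ∃ lam : k →ₗ[ZMod p] ZMod p, ∀ x : k, (∀ b : k, lam (b * x) = 0) → x = 0 := by
  haveI : Module.Finite (ZMod p) k := Module.Finite.of_finite
  have hpos : 0 < Module.finrank (ZMod p) k := Module.finrank_pos
  let bs := Module.finBasis (ZMod p) k
  let i₀ : Fin (Module.finrank (ZMod p) k) := ⟨0, hpos⟩
  refine ⟨bs.coord i₀, fun x hx => ?_⟩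
  by_contra hx0
  have h1 := hx (bs i₀ * x⁻¹)
  rw [inv_mul_cancel_right₀ hx0, Module.Basis.coord_apply, Module.Basis.repr_self,
    Finsupp.single_eq_same] at h1
  exact one_ne_zero h1

/-- a `ZMod p`-algebra is an algebra over `ZMod (ffPlaceAt p).p` (the same ring) -/
instance tkAlgebraAt (p : ℕ) [Fact p.Prime] {k : Type} [Field k] [inst : Algebra (ZMod p) k] :
    Algebra (ZMod (ffPlaceAt p).p) k := inst

/-- **existence of a setup** for a character which is cyclotomic on inertia -/
theorem tk_exists_setup (p : ℕ) [Fact p.Prime] (hp3 : 3 ≤ p) {k : Type} [Field k] [Finite k]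
    [Algebra (ZMod p) k] (χ : GQ →* kˣ)
    (hχI : ∀ σ ∈ (ffPlaceAt p).I, χ σ = cycloK p k σ) :
    ∃ S : TkSetup (ffPlaceAt p) k, S.χ = χ ∧
      (primeLocalPlace (pPrime p)).IsFrobeniusAt S.φ p ∧
      ∀ σ, S.ω σ = ((cycloChar p σ : (ZMod p)ˣ) : ZMod p) := by
  have hp : p.Prime := Fact.out
  haveI : NeZero p := ⟨hp.ne_zero⟩
  obtain ⟨ζ, hζ⟩ := HasEnoughRootsOfUnity.exists_primitiveRoot Qb p
  obtain ⟨lam, hlam⟩ := tk_exists_lam p k
  obtain ⟨φ, hφ⟩ := Fermat.Agent.Lib.Helper6.exists_isFrobeniusAt (primeLocalPlace (pPrime p)) hp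
    (tw_primeLocalPlace_liesOver (pPrime p))
  obtain ⟨ι₀, hι₀, hι₀ω⟩ := tw_exists_inertia_cycloChar_ne_one p hp3 (primeLocalPlace (pPrime p))
    (tw_primeLocalPlace_liesOver (pPrime p))
  refine ⟨{ ζ := ζ
            hζ := hζ
            ω := fun σ => ((cycloChar p σ : (ZMod p)ˣ) : ZMod p)
            hω := ?_
            χ := χ
            hχ := ?_
            lam := lam
            hlam := hlam
            φ := φ
            hφD := hφ.mem_decompositionSubgroup
            hφ := ?_
            ι₀ := ι₀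
            hι₀ := hι₀
            hι₀ω := ?_ }, rfl, hφ, fun σ => rfl⟩
  · intro σ
    have h1 := Fermat.Agent.CFT.S14.apply_eq_pow_cycloExp p σ hζ.pow_eq_one
    rw [h1]
    rfl
  · intro σ hσ
    rw [hχI σ hσ]
    rfl
  · intro x hx
    have hxP : x ∈ primeLocalPlace (pPrime p) := ((ffPlaceAt p).mem_P_iff x).2 hx
    have h1 := Fermat.Agent.FrobDensity.valuation_frobenius_sub_pow_lt_one hφ hxP
    exact ((ffPlaceAt p).tk_valuation_lt_one_iff _).1 h1
  · intro h
    apply hι₀ω
    exact Units.ext h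

/-- **`dim H¹_cont(G_p, k(χ)) ≤ 2`** for every character `χ` which is cyclotomic on inertia -/
theorem tk_finrank_locCont_charRep_le_two (p : ℕ) [Fact p.Prime] (hp3 : 3 ≤ p) {k : Type}
    [Field k] [Finite k] [Algebra (ZMod p) k] (χ : GQ →* kˣ)
    (hχI : ∀ σ ∈ (ffPlaceAt p).I, χ σ = cycloK p k σ) :
    FiniteDimensional k (locCont (pPrime p) (twCharRep χ)) ∧
      Module.finrank k (locCont (pPrime p) (twCharRep χ)) ≤ 2 := by
  obtain ⟨S, hS, -, -⟩ := tk_exists_setup p hp3 χ hχI
  have := tk_finrank_locCont_le_two S (pPrime p) hp3 (tk_onto p)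
  rw [hS] at this
  exact this

/-- **R3**: `dim H¹_cont(G_p, k(ω)) ≤ 2` -/
theorem tk_R3 (p : ℕ) [Fact p.Prime] (hp3 : 3 ≤ p) {k : Type} [Field k] [Finite k]
    [Algebra (ZMod p) k] :
    FiniteDimensional k (locCont (pPrime p) (twCharRep (cycloK p k))) ∧
      Module.finrank k (locCont (pPrime p) (twCharRep (cycloK p k))) ≤ 2 :=
  tk_finrank_locCont_charRep_le_two p hp3 (cycloK p k) (fun _ _ => rfl)

end

end Fermat.Agent.TW
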