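/-
P10 / G7 WP-D (helper8): **flat ⇒ peu ramifié** (the core of step (S4)).

Let `M` be a function model ("finite flat group scheme") on a finite group `X`, `x ∈ X`, and
`a : G_ℚ → ZMod p` a function whose zeros on `Gal(ℚ̄/K0(ζ_p))` are exactly the stabiliser of `x`,
with `p (σ x - x) = 0`.  Then every Kummer generator `y` of `a` on the inertia group has
`v(y ^ p) ∈ p ℤ` (`tk_peu_of_model`): otherwise `K0(ζ_p, y) / K0(ζ_p)` would be too ramified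
(helper5's (KB), non-unit case) for the order bound `ord ≤ 1/(p-1)` of `p`-torsion points
(helper2's (J) and (L1)).
-/
import Fermat.Agent.Lib.TW.Kum.Generator
import Fermat.Agent.Lib.TW.Flat.Char

set_option autoImplicit false
set_option linter.style.haveILetI false

namespace Fermat.Agent.TW

open Fermat.Agent.S05Lib

local notation "Qb" => AlgebraicClosure ℚ
local notation "GQ" => (AlgebraicClosure ℚ ≃ₐ[ℚ] AlgebraicClosure ℚ)

namespace FFPlace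

noncomputable section

variable (𝔓 : FFPlace)

/-- the first invariant is the valuation modulo `p` -/
lemma tkInv_fst {u : Qb} (hu : u ∈ 𝔓.K0) {n : ℤ} (hn : 𝔓.v.Is u n) :
    (𝔓.tkInv u).1 = (n : ZMod 𝔓.p) := by
  have hU := 𝔓.lf_unr
  obtain ⟨n', z, hrep⟩ := 𝔓.tkRep_exists hu hn.1
  rw [𝔓.tkInv_eq hrep]
  show ((n' : ℤ) : ZMod 𝔓.p) = n
  obtain ⟨hz, s, hs, hs0, hus⟩ := hrep
  obtain ⟨m, hm⟩ := hU s hs hs0
  have h1 : 𝔓.v.Is u ((n' : ℚ) * 1 + (𝔓.p : ℚ) * m + 0) := by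
    rw [hus]
    exact ((𝔓.lf_is_zpow 𝔓.is_p n').mul (QVal.Is.pow ⟨hs0, hm⟩ 𝔓.p)).mul
      (𝔓.tk_is_one_add_p_mul (𝔓.tk_ge_of_mem_W hz))
  have h2 := hn.unique h1
  have h3 : n = n' + 𝔓.p * m := by
    have : (n : ℚ) = ((n' + 𝔓.p * m : ℤ) : ℚ) := by push_cast; linarith
    exact_mod_cast this
  rw [h3]
  push_cast
  rw [ZMod.natCast_self, zero_mul, add_zero]

/-- **flat ⇒ peu ramifié** -/
theorem tk_peu_of_model {ζ : Qb} (hζ : IsPrimitiveRoot ζ 𝔓.p) {X : Type*}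
    [AddCommGroup X] {act : GQ → X →+ X} (M : FFModel 𝔓 X act) (x : X)
    (a : GQ → ZMod 𝔓.p)
    (ha : ∀ σ ∈ (lfAdjoin 𝔓.K0 ζ).fixingSubgroup, (a σ = 0 ↔ act σ x = x))
    (hpx : ∀ σ ∈ (lfAdjoin 𝔓.K0 ζ).fixingSubgroup, 𝔓.p • (act σ x - x) = 0)
    {y : Qb} (hy : 𝔓.TkGen ζ a y) : (𝔓.tkInv (y ^ 𝔓.p)).1 = 0 := by
  have hU := 𝔓.lf_unr
  have hp := 𝔓.hp
  have hζp := hζ.pow_eq_one
  have hp1 : (1 : ℚ) < 𝔓.p := by exact_mod_cast hp.one_lt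
  set E := lfAdjoin 𝔓.K0 ζ with hEdef
  have hE : 𝔓.K0 ≤ E := lf_le_adjoin _ _
  have hGE : E.fixingSubgroup ≤ 𝔓.I := 𝔓.lf_fixingSubgroup_le hE
  obtain ⟨hπ, he⟩ := 𝔓.lf_unif_adjoin_zeta hζ
  have hcast : (((𝔓.p - 1 : ℕ) : ℚ)) = (𝔓.p : ℚ) - 1 := by
    rw [Nat.cast_sub hp.one_lt.le]; simp
  have hu := hy.pow_mem_K0 hζp
  have hu0 := hy.pow_ne_zero
  obtain ⟨n, hn⟩ := hU _ hu hu0
  rw [𝔓.tkInv_fst hu ⟨hu0, hn⟩, ZMod.intCast_zmod_eq_zero_iff_dvd]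
  by_contra hnp
  have hyE : ∀ σ ∈ E.fixingSubgroup, σ y = lfZPow ζ (a σ) * y := fun σ hσ => hy.2 σ (hGE hσ)
  have hordy : (𝔓.p : ℚ) * 𝔓.v.ord y = n := by
    rw [← 𝔓.v.ord_pow hy.1, hn]
  by_cases hall : ∀ σ ∈ E.fixingSubgroup, a σ = 0
  · -- `y ∈ E`
    have hyE' : y ∈ E := lf_kummer_mem_of_eq_zero E a hyE hall
    obtain ⟨k, hk⟩ := hπ.gen y hyE' hy.1
    -- `p k = n (p - 1)`
    have h1 : ((𝔓.p : ℤ) * k : ℤ) = n * ((𝔓.p : ℤ) - 1) := by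
      have h2 : (𝔓.p : ℚ) * k = n * ((𝔓.p : ℚ) - 1) := by
        have h3 : 𝔓.v.ord (ζ - 1) * ((𝔓.p : ℚ) - 1) = 1 := by rw [← hcast, mul_comm]; exact he
        calc (𝔓.p : ℚ) * k = (𝔓.p : ℚ) * (k * (𝔓.v.ord (ζ - 1) * ((𝔓.p : ℚ) - 1))) := by
              rw [h3, mul_one]
          _ = ((𝔓.p : ℚ) * (k * 𝔓.v.ord (ζ - 1))) * ((𝔓.p : ℚ) - 1) := by ring
          _ = n * ((𝔓.p : ℚ) - 1) := by rw [← hk, hordy]
      exact_mod_cast h2
    have h4 : (𝔓.p : ℤ) ∣ n * ((𝔓.p : ℤ) - 1) := ⟨k, h1.symm⟩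
    have hpZ : Prime (𝔓.p : ℤ) := Nat.prime_iff_prime_int.1 hp
    rcases hpZ.dvd_or_dvd h4 with h5 | h5
    · exact hnp h5
    · have h6 : (𝔓.p : ℤ) ∣ 1 := by
        have := dvd_sub (dvd_refl (𝔓.p : ℤ)) h5
        rwa [sub_sub_cancel] at this
      have h7 := Int.le_of_dvd one_pos h6
      have : (2 : ℤ) ≤ 𝔓.p := by exact_mod_cast hp.two_le
      omega
  · push Not at hall
    obtain ⟨τ, hτ, haτ⟩ := hall
    have hτI : τ ∈ 𝔓.I := hGE hτ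
    set z₁ := act τ x - x with hz₁
    have hz₁0 : z₁ ≠ 0 := by
      intro h0
      exact haτ ((ha τ hτ).2 (sub_eq_zero.1 h0))
    -- the coordinates of `x` lie in `E(y)`
    have hcoord : ∀ g ∈ M.carrier, g x ∈ lfAdjoin E y := by
      intro g hg
      rw [FFPlace.lf_mem_iff_forall]
      intro σ hσ
      obtain ⟨hσE, haσ⟩ := (lf_kummer_fixingSubgroup E hζ a hy.1 hyE σ).1 hσ
      rw [← M.equivariant g hg σ (hGE hσE) x, (ha σ hσE).1 haσ]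
    set e : ℕ := 𝔓.p - 1 with hedef
    set c : ℚ := 1 / ((𝔓.p : ℚ) * e) + 1 / ((𝔓.p : ℚ) - 1) with hc
    have hn' : ¬ (𝔓.p : ℤ) ∣ n * ((𝔓.p : ℤ) - 1) := by
      intro h4
      have hpZ : Prime (𝔓.p : ℤ) := Nat.prime_iff_prime_int.1 hp
      rcases hpZ.dvd_or_dvd h4 with h5 | h5
      · exact hnp h5
      · have h6 : (𝔓.p : ℤ) ∣ 1 := by
          have := dvd_sub (dvd_refl (𝔓.p : ℤ)) h5
          rwa [sub_sub_cancel] at this
        have h7 := Int.le_of_dvd one_pos h6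
        have : (2 : ℤ) ≤ 𝔓.p := by exact_mod_cast hp.two_le
        omega
    have hun : 𝔓.v.Is (y ^ 𝔓.p) (((n * ((𝔓.p : ℤ) - 1) : ℤ) : ℚ) / e) := by
      refine ⟨hu0, ?_⟩
      rw [hn, hcast]
      push_cast
      have hp10' : (𝔓.p : ℚ) - 1 ≠ 0 := by linarith
      rw [mul_div_assoc, div_self hp10', mul_one]
    have hmove : ∀ g ∈ M.carrier, 𝔓.v.Ge (τ (g x) - g x) c := fun g hg =>
      𝔓.lf_kummer_nonunit_ge hE hπ he (hE hu) rfl hn' hun hτ (hcoord g hg) (M.ge_zero hg x)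
    have hJ : M.OrdGE z₁ c := FFModel.ordGE_act_sub hτI hmove
    obtain ⟨s, hs0, hge, f, hf, hfz⟩ := FFModel.exists_ord (M := M) hz₁0
    have hcpos : 0 < c := by
      rw [hc, hcast]
      have : (0 : ℚ) < (𝔓.p : ℚ) - 1 := by linarith
      positivity
    have hcs : c ≤ s := by
      rcases hJ f hf.1 hf.2 with h | h
      · exact absurd h hfz.1
      · rwa [hfz.2] at h
    have hspos : 0 < s := lt_of_lt_of_le hcpos hcs
    have hL1 := FFModel.ord_mul_le hU (hpx τ hτ) hspos hge hf hfz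
    have hp10 : (0 : ℚ) < (𝔓.p : ℚ) - 1 := by linarith
    have h8 : c * ((𝔓.p : ℚ) - 1) ≤ 1 := le_trans (mul_le_mul_of_nonneg_right hcs hp10.le) hL1
    have h9 : c * ((𝔓.p : ℚ) - 1) = 1 / (𝔓.p : ℚ) + 1 := by
      rw [hc, hcast]
      field_simp
    rw [h9] at h8
    have : (0 : ℚ) < 1 / (𝔓.p : ℚ) := by positivity
    linarith

end

end FFPlace

end Fermat.Agent.TW
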